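import Mathlib

/-!
# S51, package EB: the curve `v² = w (w - 1) (w - 81)` has only the points with `v = 0`

If `(w, v)` is a rational point with `v ≠ 0`, the duplication formula produces a rational solution
of `a² = b² + e² = 81 b² + g²` with `b ≠ 0`; an infinite descent shows there is none.
-/

set_option autoImplicit false

namespace Fermat.Agent.S51

namespace EB

lemma sq_of_isCoprime_pos {x y z : ℤ} (hx : 0 < x) (h : IsCoprime x y) (hxy : x * y = z ^ 2) :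
    ∃ r : ℤ, x = r ^ 2 := by
  obtain ⟨r, hr | hr⟩ := Int.sq_of_isCoprime h hxy
  · exact ⟨r, hr⟩
  · exfalso; nlinarith [sq_nonneg r]

lemma sq_of_sq_mul {k Z y : ℤ} (hk : k ≠ 0) (h : k ^ 2 * Z = y ^ 2) : ∃ t : ℤ, Z = t ^ 2 := by
  have hd : k ∣ y := (Int.pow_dvd_pow_iff two_ne_zero).mp ⟨Z, h.symm⟩
  obtain ⟨t, rfl⟩ := hd
  refine ⟨t, ?_⟩
  have : k ^ 2 * Z = k ^ 2 * t ^ 2 := by rw [h]; ring
  exact mul_left_cancel₀ (pow_ne_zero 2 hk) this

lemma sq_mod_eight (x : ℤ) : x ^ 2 % 8 = 0 ∨ x ^ 2 % 8 = 1 ∨ x ^ 2 % 8 = 4 := by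
  have h : x % 8 = 0 ∨ x % 8 = 1 ∨ x % 8 = 2 ∨ x % 8 = 3 ∨ x % 8 = 4 ∨ x % 8 = 5 ∨ x % 8 = 6 ∨
      x % 8 = 7 := by omega
  rcases h with h | h | h | h | h | h | h | h <;> simp [pow_two, Int.mul_emod, h]

lemma sq_mod_eight_of_odd {x : ℤ} (hx : x % 2 = 1) : x ^ 2 % 8 = 1 := by
  have h : x % 8 = 1 ∨ x % 8 = 3 ∨ x % 8 = 5 ∨ x % 8 = 7 := by omega
  rcases h with h | h | h | h <;> simp [pow_two, Int.mul_emod, h]

lemma sq_mod_four_of_even {x : ℤ} (hx : x % 2 = 0) : x ^ 2 % 4 = 0 := by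
  have h : x % 4 = 0 ∨ x % 4 = 2 := by omega
  rcases h with h | h <;> simp [pow_two, Int.mul_emod, h]

lemma sq_mod_three (x : ℤ) : x ^ 2 % 3 = 0 ∨ x ^ 2 % 3 = 1 := by
  have h : x % 3 = 0 ∨ x % 3 = 1 ∨ x % 3 = 2 := by omega
  rcases h with h | h | h <;> simp [pow_two, Int.mul_emod, h]

/-- If `x² = y² + z²`-type relation `x ^ 2 = c * y ^ 2 + z ^ 2` holds and `x` is coprime to
`c * y ^ 2`, then `x` is coprime to `z`. -/
lemma isCoprime_of_sq_eq {x Y z : ℤ} (h : IsCoprime x Y) (hxyz : x ^ 2 = Y + z ^ 2) :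
    IsCoprime x z := by
  have h1 : IsCoprime x (Y + x * (-x)) := h.add_mul_left_right (-x)
  have h2 : Y + x * (-x) = -(z ^ 2) := by linarith [hxyz, pow_two x]
  rw [h2, IsCoprime.neg_right_iff] at h1
  exact (IsCoprime.pow_right_iff two_pos).mp h1

lemma isCoprime_of_sq_eq' {x Y z : ℤ} (h : IsCoprime x Y) (hxyz : Y = x ^ 2 + z ^ 2) :
    IsCoprime x z := by
  have h1 : IsCoprime x (Y + x * (-x)) := h.add_mul_left_right (-x)
  have h2 : Y + x * (-x) = z ^ 2 := by linarith [hxyz, pow_two x]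
  rw [h2] at h1
  exact (IsCoprime.pow_right_iff two_pos).mp h1

/-- Half sum and half difference of coprime integers are coprime. -/
lemma isCoprime_half {x y m n : ℤ} (h : IsCoprime x y) (hx : x = m + n) (hy : y = m - n) :
    IsCoprime m n := by
  obtain ⟨u, v, huv⟩ := h
  exact ⟨u + v, u - v, by rw [hx, hy] at huv; linear_combination huv⟩

lemma sq_mod_three' (x : ℤ) :
    (x % 3 = 0 ∧ x ^ 2 % 3 = 0) ∨ (x % 3 ≠ 0 ∧ x ^ 2 % 3 = 1) := by
  have h : x % 3 = 0 ∨ x % 3 = 1 ∨ x % 3 = 2 := by omega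
  rcases h with h | h | h <;> simp [pow_two, Int.mul_emod, h]

lemma sq_mod_four (x : ℤ) :
    (x % 2 = 0 ∧ x ^ 2 % 4 = 0) ∨ (x % 2 = 1 ∧ x ^ 2 % 4 = 1) := by
  have h : x % 4 = 0 ∨ x % 4 = 1 ∨ x % 4 = 2 ∨ x % 4 = 3 := by omega
  rcases h with h | h | h | h
  · left; exact ⟨by omega, by simp [pow_two, Int.mul_emod, h]⟩
  · right; exact ⟨by omega, by simp [pow_two, Int.mul_emod, h]⟩
  · left; exact ⟨by omega, by simp [pow_two, Int.mul_emod, h]⟩
  · right; exact ⟨by omega, by simp [pow_two, Int.mul_emod, h]⟩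

lemma not_both_dvd {a b : ℤ} (hab : IsCoprime a b) {k : ℤ} (hk : 1 < k) (ha : a % k = 0)
    (hb : b % k = 0) : False := by
  have h := hab.isUnit_of_dvd' (Int.dvd_of_emod_eq_zero ha) (Int.dvd_of_emod_eq_zero hb)
  rcases Int.isUnit_iff.mp h with h | h <;> omega

lemma three_ndvd {a b e : ℤ} (hab : IsCoprime a b) (h1 : a ^ 2 = b ^ 2 + e ^ 2) : a % 3 ≠ 0 := by
  intro h
  rcases sq_mod_three' a with ⟨_, ha⟩ | ⟨ha, _⟩
  · rcases sq_mod_three' b with ⟨hb, _⟩ | ⟨_, hb⟩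
    · exact not_both_dvd hab (by norm_num) h hb
    · rcases sq_mod_three' e with ⟨_, he⟩ | ⟨_, he⟩ <;> omega
  · exact ha h

lemma a_odd {a b e : ℤ} (hab : IsCoprime a b) (h1 : a ^ 2 = b ^ 2 + e ^ 2) : a % 2 = 1 := by
  rcases sq_mod_four a with ⟨ha, ha'⟩ | ⟨ha, _⟩
  · exfalso
    rcases sq_mod_four b with ⟨hb, _⟩ | ⟨_, hb⟩
    · exact not_both_dvd hab (by norm_num) ha hb
    · rcases sq_mod_four e with ⟨_, he⟩ | ⟨_, he⟩ <;> omega
  · exact ha

lemma isCoprime_three {a : ℤ} (h : a % 3 ≠ 0) : IsCoprime a 3 := by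
  apply IsCoprime.symm
  rw [Int.prime_three.irreducible.coprime_iff_not_dvd]
  intro h'
  exact h (Int.emod_eq_zero_of_dvd h')

lemma lt_of_sq_lt {x y : ℤ} (hy : 0 ≤ y) (h : x ^ 2 < y ^ 2) : x < y := by
  by_contra hc
  push Not at hc
  nlinarith

/-- The case `b` odd is impossible. -/
lemma odd_case {a b e g : ℤ} (ha : 0 < a) (hb : 0 < b) (hab : IsCoprime a b)
    (h1 : a ^ 2 = b ^ 2 + e ^ 2) (h2 : a ^ 2 = 81 * b ^ 2 + g ^ 2) (hbo : b % 2 = 1) : False := by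
  have hao := a_odd hab h1
  have ha3 := three_ndvd hab h1
  have h9 : 9 * b < a := by
    have h' : 9 * b ≤ a := by
      by_contra hc
      push Not at hc
      nlinarith [sq_nonneg g]
    omega
  have hee : e % 2 = 0 := by
    rcases sq_mod_four a with ⟨_, ha'⟩ | ⟨_, ha'⟩ <;> rcases sq_mod_four b with ⟨_, hb'⟩ | ⟨_, hb'⟩ <;>
      rcases sq_mod_four e with ⟨he, he'⟩ | ⟨he, he'⟩ <;> omega
  have hge : g % 2 = 0 := by
    rcases sq_mod_four a with ⟨_, ha'⟩ | ⟨_, ha'⟩ <;> rcases sq_mod_four b with ⟨_, hb'⟩ | ⟨_, hb'⟩ <;>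
      rcases sq_mod_four g with ⟨he, he'⟩ | ⟨he, he'⟩ <;> omega
  obtain ⟨e0, rfl⟩ : ∃ e0, e = 2 * e0 := ⟨e / 2, by omega⟩
  obtain ⟨g0, rfl⟩ : ∃ g0, g = 2 * g0 := ⟨g / 2, by omega⟩
  obtain ⟨m0, hm0⟩ : ∃ m0, a + b = 2 * m0 := ⟨(a + b) / 2, by omega⟩
  obtain ⟨n0, hn0⟩ : ∃ n0, a - b = 2 * n0 := ⟨(a - b) / 2, by omega⟩
  obtain ⟨m1, hm1⟩ : ∃ m1, a + 9 * b = 2 * m1 := ⟨(a + 9 * b) / 2, by omega⟩
  obtain ⟨n1, hn1⟩ : ∃ n1, a - 9 * b = 2 * n1 := ⟨(a - 9 * b) / 2, by omega⟩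
  have ea : a = m0 + n0 := by omega
  have eb : b = m0 - n0 := by omega
  have ea' : a = m1 + n1 := by omega
  have eb' : 9 * b = m1 - n1 := by omega
  have c0 : IsCoprime m0 n0 := isCoprime_half hab ea eb
  have hab9 : IsCoprime a (9 * b) := by
    have h3 := isCoprime_three ha3
    have : IsCoprime a (3 * 3 * b) := (h3.mul_right h3).mul_right hab
    simpa using this
  have c1 : IsCoprime m1 n1 := isCoprime_half hab9 ea' eb'
  have p0 : m0 * n0 = e0 ^ 2 := by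
    have : 4 * (m0 * n0) = 4 * e0 ^ 2 := by
      have : (2 * m0) * (2 * n0) = (2 * e0) ^ 2 := by rw [← hm0, ← hn0]; linear_combination h1
      linarith
    linarith
  have p1 : m1 * n1 = g0 ^ 2 := by
    have : 4 * (m1 * n1) = 4 * g0 ^ 2 := by
      have : (2 * m1) * (2 * n1) = (2 * g0) ^ 2 := by rw [← hm1, ← hn1]; linear_combination h2
      linarith
    linarith
  obtain ⟨r0, hr0⟩ := sq_of_isCoprime_pos (by omega) c0 p0
  obtain ⟨s0, hs0⟩ := sq_of_isCoprime_pos (by omega) c0.symm (by rw [mul_comm]; exact p0)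
  obtain ⟨r1, hr1⟩ := sq_of_isCoprime_pos (by omega) c1 p1
  obtain ⟨s1, hs1⟩ := sq_of_isCoprime_pos (by omega) c1.symm (by rw [mul_comm]; exact p1)
  have q0 := sq_mod_eight r0
  have q1 := sq_mod_eight s0
  have q2 := sq_mod_eight r1
  have q3 := sq_mod_eight s1
  rw [← hr0] at q0
  rw [← hs0] at q1
  rw [← hr1] at q2
  rw [← hs1] at q3
  omega

/-- `e` and `g` are coprime when `e` is odd and coprime to `b`. -/
lemma isCoprime_e_g {b e g : ℤ} (heb : IsCoprime e b) (heo : e % 2 = 1)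
    (h : e ^ 2 = 80 * b ^ 2 + g ^ 2) : IsCoprime e g := by
  rw [Int.isCoprime_iff_gcd_eq_one]
  set d := e.gcd g with hd
  have hde : (d : ℤ) ∣ e := Int.gcd_dvd_left e g
  have hdg : (d : ℤ) ∣ g := Int.gcd_dvd_right e g
  have hdb : IsCoprime (d : ℤ) b := heb.of_isCoprime_of_dvd_left hde
  have h80 : (d : ℤ) ^ 2 ∣ 80 * b ^ 2 := by
    have : 80 * b ^ 2 = e ^ 2 - g ^ 2 := by linarith
    rw [this]
    exact dvd_sub (pow_dvd_pow_of_dvd hde 2) (pow_dvd_pow_of_dvd hdg 2)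
  have h80' : (d : ℤ) ^ 2 ∣ 80 := (hdb.pow (m := 2) (n := 2)).dvd_of_dvd_mul_right h80
  have h80n : d ^ 2 ∣ 80 := by exact_mod_cast h80'
  have hdo : d % 2 = 1 := by
    obtain ⟨k, hk⟩ := hde
    by_contra hc
    have : (d : ℤ) % 2 = 0 := by omega
    have : e % 2 = 0 := by rw [hk, Int.mul_emod, this]; simp
    omega
  have hle : d ^ 2 ≤ 80 := Nat.le_of_dvd (by norm_num) h80n
  have hd9 : d < 9 := by nlinarith
  interval_cases d <;> first | rfl | omega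

/-- From `X Y = 5 z²` with `X, Y` positive and coprime, one of `X, Y` is a square. -/
lemma sq_or_sq {X Y z : ℤ} (hX : 0 < X) (hY : 0 < Y) (h : IsCoprime X Y)
    (hXY : X * Y = 5 * z ^ 2) : (∃ x, X = x ^ 2) ∨ (∃ y, Y = y ^ 2) := by
  have h5 : ((5 : ℕ) : ℤ) ∣ X * Y := ⟨z ^ 2, by rw [hXY]; norm_num⟩
  rcases Int.Prime.dvd_mul' (by norm_num) h5 with ⟨X', hX'⟩ | ⟨Y', hY'⟩
  · right
    push_cast at hX'
    subst hX'
    have hc : IsCoprime X' Y := h.of_mul_left_right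
    exact sq_of_isCoprime_pos hY hc.symm (z := z) (by linarith)
  · left
    push_cast at hY'
    subst hY'
    have hc : IsCoprime X Y' := h.of_mul_right_right
    exact sq_of_isCoprime_pos hX hc (z := z) (by linarith)

/-- The descent step in the case `b` even. -/
lemma even_case {a b e g : ℤ} (ha : 0 < a) (hb : 0 < b) (he : 0 ≤ e) (hg : 0 ≤ g)
    (hab : IsCoprime a b)
    (h1 : a ^ 2 = b ^ 2 + e ^ 2) (h2 : a ^ 2 = 81 * b ^ 2 + g ^ 2) (hbe : b % 2 = 0) :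
    ∃ a' b' e' g' : ℤ, b' ≠ 0 ∧ a' ^ 2 = b' ^ 2 + e' ^ 2 ∧ a' ^ 2 = 81 * b' ^ 2 + g' ^ 2 ∧
      a'.natAbs < a.natAbs := by
  have hao := a_odd hab h1
  have ha3 := three_ndvd hab h1
  have heo : e % 2 = 1 := by
    rcases sq_mod_four a with ⟨_, ha'⟩ | ⟨_, ha'⟩ <;> rcases sq_mod_four b with ⟨_, hb'⟩ | ⟨_, hb'⟩ <;>
      rcases sq_mod_four e with ⟨he, he'⟩ | ⟨he, he'⟩ <;> omega
  have hgo : g % 2 = 1 := by
    rcases sq_mod_four a with ⟨_, ha'⟩ | ⟨_, ha'⟩ <;> rcases sq_mod_four b with ⟨_, hb'⟩ | ⟨_, hb'⟩ <;>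
      rcases sq_mod_four g with ⟨he, he'⟩ | ⟨he, he'⟩ <;> omega
  have hea : e < a := lt_of_sq_lt ha.le (by nlinarith)
  have hge : g < e := lt_of_sq_lt he (by nlinarith)
  obtain ⟨b', rfl⟩ : ∃ b', b = 2 * b' := ⟨b / 2, by omega⟩
  obtain ⟨m0, hm0⟩ : ∃ m0, a + e = 2 * m0 := ⟨(a + e) / 2, by omega⟩
  obtain ⟨n0, hn0⟩ : ∃ n0, a - e = 2 * n0 := ⟨(a - e) / 2, by omega⟩
  obtain ⟨m1, hm1⟩ : ∃ m1, a + g = 2 * m1 := ⟨(a + g) / 2, by omega⟩
  obtain ⟨n1, hn1⟩ : ∃ n1, a - g = 2 * n1 := ⟨(a - g) / 2, by omega⟩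
  have ea : a = m0 + n0 := by omega
  have ee : e = m0 - n0 := by omega
  have ea' : a = m1 + n1 := by omega
  have eg : g = m1 - n1 := by omega
  have hae : IsCoprime a e := isCoprime_of_sq_eq (hab.pow_right (n := 2)) h1
  have hag : IsCoprime a g := by
    have h3 := isCoprime_three ha3
    have : IsCoprime a (3 ^ 4 * (2 * b') ^ 2) := (h3.pow_right).mul_right (hab.pow_right)
    refine isCoprime_of_sq_eq this ?_
    rw [h2]; norm_num
  have heb : IsCoprime e (2 * b') :=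
    (isCoprime_of_sq_eq' (hab.symm.pow_right (n := 2)) h1).symm
  have heg : IsCoprime e g := isCoprime_e_g heb heo (by linarith)
  have c0 : IsCoprime m0 n0 := isCoprime_half hae ea ee
  have c1 : IsCoprime m1 n1 := isCoprime_half hag ea' eg
  have p0 : m0 * n0 = b' ^ 2 := by
    have : (2 * m0) * (2 * n0) = (2 * b') ^ 2 := by rw [← hm0, ← hn0]; linear_combination h1
    linarith
  have p1 : m1 * n1 = (9 * b') ^ 2 := by
    have : (2 * m1) * (2 * n1) = 81 * (2 * b') ^ 2 := by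
      rw [← hm1, ← hn1]; linear_combination h2
    linarith
  obtain ⟨m, hm⟩ := sq_of_isCoprime_pos (by omega) c0 p0
  obtain ⟨n, hn⟩ := sq_of_isCoprime_pos (by omega) c0.symm (by rw [mul_comm]; exact p0)
  obtain ⟨m', hm'⟩ := sq_of_isCoprime_pos (by omega) c1 p1
  obtain ⟨n', hn'⟩ := sq_of_isCoprime_pos (by omega) c1.symm (by rw [mul_comm]; exact p1)
  have hm_ne : m ≠ 0 := by
    rintro rfl
    have : m0 = 0 := by rw [hm]; norm_num
    omega
  have hn_ne : n ≠ 0 := by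
    rintro rfl
    have : n0 = 0 := by rw [hn]; norm_num
    omega
  have cXY : IsCoprime (m1 - n0) (m0 - m1) :=
    isCoprime_half heg (by omega) (by omega)
  have pXY : (m1 - n0) * (m0 - m1) = 5 * (4 * b') ^ 2 := by
    have : (2 * (m1 - n0)) * (2 * (m0 - m1)) = 80 * (2 * b') ^ 2 := by
      have e1 : 2 * (m1 - n0) = e + g := by omega
      have e2 : 2 * (m0 - m1) = e - g := by omega
      rw [e1, e2]; linear_combination h2 - h1
    linarith
  rcases sq_or_sq (by omega) (by omega) cXY pXY with ⟨x, hx⟩ | ⟨y, hy⟩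
  · obtain ⟨t, ht⟩ : ∃ t, m1 - 81 * n0 = t ^ 2 := by
      refine sq_of_sq_mul (k := m) (y := m' * x) hm_ne ?_
      have hx' : m0 - n1 = x ^ 2 := by rw [← hx]; omega
      rw [mul_pow, ← hm, ← hm', ← hx']
      linear_combination p1 - 81 * p0
    refine ⟨m', n, x, t, hn_ne, ?_, ?_, ?_⟩
    · rw [← hm', ← hn, ← hx]; ring
    · rw [← hm', ← hn, ← ht]; ring
    · have := Int.natAbs_le_self_sq m'
      rw [← hm'] at this
      omega
  · obtain ⟨t, ht⟩ : ∃ t, n1 - 81 * n0 = t ^ 2 := by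
      refine sq_of_sq_mul (k := m) (y := n' * y) hm_ne ?_
      rw [mul_pow, ← hm, ← hn', ← hy]
      linear_combination p1 - 81 * p0
    have hy' : n1 - n0 = y ^ 2 := by rw [← hy]; omega
    refine ⟨n', n, y, t, hn_ne, ?_, ?_, ?_⟩
    · rw [← hn', ← hn, ← hy']; ring
    · rw [← hn', ← hn, ← ht]; ring
    · have := Int.natAbs_le_self_sq n'
      rw [← hn'] at this
      omega

/-- The descent step. -/
lemma step {a b e g : ℤ} (ha : 0 < a) (hb : 0 < b) (he : 0 ≤ e) (hg : 0 ≤ g)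
    (hab : IsCoprime a b)
    (h1 : a ^ 2 = b ^ 2 + e ^ 2) (h2 : a ^ 2 = 81 * b ^ 2 + g ^ 2) :
    ∃ a' b' e' g' : ℤ, b' ≠ 0 ∧ a' ^ 2 = b' ^ 2 + e' ^ 2 ∧ a' ^ 2 = 81 * b' ^ 2 + g' ^ 2 ∧
      a'.natAbs < a.natAbs := by
  rcases Int.emod_two_eq_zero_or_one b with hb2 | hb2
  · exact even_case ha hb he hg hab h1 h2 hb2
  · exact (odd_case ha hb hab h1 h2 hb2).elim

/-- There is no integer solution of `a² = b² + e² = 81 b² + g²` with `b ≠ 0`. -/
theorem no_int_sol : ∀ (N : ℕ) (a b e g : ℤ), a.natAbs = N → b ≠ 0 → a ^ 2 = b ^ 2 + e ^ 2 →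
    a ^ 2 = 81 * b ^ 2 + g ^ 2 → False := by
  intro N
  induction N using Nat.strong_induction_on with
  | _ N ih =>
    intro a b e g hN hb h1 h2
    have hgcd : 0 < a.gcd b := Int.gcd_pos_of_ne_zero_right a hb
    obtain ⟨c, a1, b1, hc, hab1, rfl, rfl⟩ := Int.exists_gcd_one' hgcd
    have hc0 : (c : ℤ) ≠ 0 := by exact_mod_cast hc.ne'
    have hce : (c : ℤ) ∣ e := by
      refine (Int.pow_dvd_pow_iff two_ne_zero).mp ⟨a1 ^ 2 - b1 ^ 2, ?_⟩
      linear_combination -h1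
    have hcg : (c : ℤ) ∣ g := by
      refine (Int.pow_dvd_pow_iff two_ne_zero).mp ⟨a1 ^ 2 - 81 * b1 ^ 2, ?_⟩
      linear_combination -h2
    obtain ⟨e1, rfl⟩ := hce
    obtain ⟨g1, rfl⟩ := hcg
    have hc2 : (c : ℤ) ^ 2 ≠ 0 := pow_ne_zero 2 hc0
    have h1' : a1 ^ 2 = b1 ^ 2 + e1 ^ 2 := by
      apply mul_left_cancel₀ hc2
      linear_combination h1
    have h2' : a1 ^ 2 = 81 * b1 ^ 2 + g1 ^ 2 := by
      apply mul_left_cancel₀ hc2
      linear_combination h2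
    have hb1 : b1 ≠ 0 := by
      rintro rfl
      simp at hb
    have ha1 : a1 ≠ 0 := by
      rintro rfl
      have : 0 < b1 ^ 2 := by positivity
      nlinarith [sq_nonneg e1]
    obtain ⟨a', b', e', g', hb', h1'', h2'', hlt⟩ :=
      step (a := |a1|) (b := |b1|) (e := |e1|) (g := |g1|) (abs_pos.mpr ha1) (abs_pos.mpr hb1)
        (abs_nonneg _) (abs_nonneg _) (Int.isCoprime_iff_gcd_eq_one.mpr hab1).abs_abs
        (by simpa only [sq_abs] using h1') (by simpa only [sq_abs] using h2')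
    refine ih a'.natAbs ?_ a' b' e' g' rfl hb' h1'' h2''
    rw [Int.natAbs_abs] at hlt
    refine lt_of_lt_of_le hlt ?_
    rw [← hN, Int.natAbs_mul, Int.natAbs_natCast]
    exact Nat.le_mul_of_pos_right _ hc

/-- There is no rational solution of `a² = b² + e² = 81 b² + g²` with `b ≠ 0`. -/
theorem no_rat_sol (a b e g : ℚ) (hb : b ≠ 0) (h1 : a ^ 2 = b ^ 2 + e ^ 2)
    (h2 : a ^ 2 = 81 * b ^ 2 + g ^ 2) : False := by
  have key : ∀ q : ℚ, q = (q.num : ℚ) / (q.den : ℚ) := fun q => (Rat.num_div_den q).symm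
  have hda : (a.den : ℚ) ≠ 0 := by exact_mod_cast a.den_nz
  have hdb : (b.den : ℚ) ≠ 0 := by exact_mod_cast b.den_nz
  have hde : (e.den : ℚ) ≠ 0 := by exact_mod_cast e.den_nz
  have hdg : (g.den : ℚ) ≠ 0 := by exact_mod_cast g.den_nz
  have ea := Rat.mul_den_eq_num a
  have eb := Rat.mul_den_eq_num b
  have ee := Rat.mul_den_eq_num e
  have eg := Rat.mul_den_eq_num g
  refine no_int_sol _ (a.num * b.den * e.den * g.den) (b.num * a.den * e.den * g.den)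
    (e.num * a.den * b.den * g.den) (g.num * a.den * b.den * e.den) rfl ?_ ?_ ?_
  · have : b.num ≠ 0 := Rat.num_ne_zero.mpr hb
    have h1 : (a.den : ℤ) ≠ 0 := by exact_mod_cast a.den_nz
    have h2 : (e.den : ℤ) ≠ 0 := by exact_mod_cast e.den_nz
    have h3 : (g.den : ℤ) ≠ 0 := by exact_mod_cast g.den_nz
    positivity
  · have : ((a.num * b.den * e.den * g.den : ℤ) : ℚ) ^ 2 =
        ((b.num * a.den * e.den * g.den : ℤ) : ℚ) ^ 2 +
          ((e.num * a.den * b.den * g.den : ℤ) : ℚ) ^ 2 := by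
      push_cast
      rw [← ea, ← eb, ← ee]
      linear_combination ((a.den : ℚ) * b.den * e.den * g.den) ^ 2 * h1
    exact_mod_cast this
  · have : ((a.num * b.den * e.den * g.den : ℤ) : ℚ) ^ 2 =
        81 * ((b.num * a.den * e.den * g.den : ℤ) : ℚ) ^ 2 +
          ((g.num * a.den * b.den * e.den : ℤ) : ℚ) ^ 2 := by
      push_cast
      rw [← ea, ← eb, ← eg]
      linear_combination ((a.den : ℚ) * b.den * e.den * g.den) ^ 2 * h2
    exact_mod_cast this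

end EB

/-- The only rational points of `v² = w (w - 1) (w - 81)` are those with `v = 0`. -/
theorem eb_points (w v : ℚ) (h : v ^ 2 = w * (w - 1) * (w - 81)) : v = 0 := by
  by_contra hv
  refine EB.no_rat_sol (w ^ 2 - 81) (2 * v) (w ^ 2 - 2 * w + 81) (w ^ 2 - 162 * w + 81)
    (mul_ne_zero two_ne_zero hv) ?_ ?_
  · linear_combination (-4 : ℚ) * h
  · linear_combination (-324 : ℚ) * h

end Fermat.Agent.S51
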