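import Mathlib

/-!
# S51, package C: rational points on the model `X²Y + XY² + 5XY + 9Y - X = 0` of `X₀(15)`,
assuming the rank zero statement for `v² = w(w-1)(w-81)`.
-/

set_option autoImplicit false

namespace Fermat.Agent.S51

/-- homogeneous form of the rank zero statement -/
theorem eb_hom (heb : ∀ w v : ℚ, v ^ 2 = w * (w - 1) * (w - 81) → v = 0)
    (A d V : ℚ) (hd : d ≠ 0) (h : V ^ 2 = A * (A - d) * (A - 81 * d) * d) : V = 0 := by
  have h1 : (V / d ^ 2) ^ 2 = (A / d) * (A / d - 1) * (A / d - 81) := by
    field_simp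
    linear_combination h
  have h2 := heb _ _ h1
  have hd2 : d ^ 2 ≠ 0 := pow_ne_zero 2 hd
  rcases div_eq_zero_iff.mp h2 with h3 | h3
  · exact h3
  · exact absurd h3 hd2

theorem curveC_points_of (heb : ∀ w v : ℚ, v ^ 2 = w * (w - 1) * (w - 81) → v = 0)
    (X Y : ℚ) (hX : X ≠ 0) (hY : Y ≠ 0)
    (h : X ^ 2 * Y + X * Y ^ 2 + 5 * X * Y + 9 * Y - X = 0) :
    (X = -2 ∨ X = -9 / 2) ∧ (Y = 2 ∨ Y = -1 / 2) := by
  by_cases h4 : X - 4 * Y = 0
  · -- X = 4Y
    have hx : X = 4 * Y := by linear_combination h4
    subst hx
    have h5 : Y * (2 * Y + 1) ^ 2 = 0 := by linear_combination h / 5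
    have h6 : 2 * Y + 1 = 0 := by
      rcases mul_eq_zero.mp h5 with h7 | h7
      · exact absurd h7 hY
      · simpa using h7
    have hy : Y = -1 / 2 := by linear_combination h6 / 2
    subst hy
    constructor
    · left; norm_num
    · right; rfl
  · have hd : Y * (X - 4 * Y) ≠ 0 := mul_ne_zero hY h4
    have hV := eb_hom heb (X * (4 * X + 9 * Y)) (Y * (X - 4 * Y))
      (4 * X * Y * (2 * X + 2 * Y + 5) * (X + Y) * (X - 9 * Y)) hd (by
        linear_combination (64 * X * Y * (X + Y) ^ 3 * (X - 9 * Y) ^ 2) * h)
    have key : (4 * X + 9 * Y) * (X - 4 * Y) = X * Y * (2 * X + 2 * Y + 5) ^ 2 := by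
      linear_combination (-4 * (X + Y)) * h
    have h4XY : 4 * X * Y ≠ 0 := mul_ne_zero (mul_ne_zero (by norm_num) hX) hY
    rcases mul_eq_zero.mp hV with hV | hV
    · rcases mul_eq_zero.mp hV with hV | hV
      · rcases mul_eq_zero.mp hV with hV | hV
        · exact absurd hV h4XY
        · -- 2X + 2Y + 5 = 0
          rw [hV] at key
          have h9 : 4 * X + 9 * Y = 0 := by
            have : (4 * X + 9 * Y) * (X - 4 * Y) = 0 := by linear_combination key
            exact (mul_eq_zero.mp this).resolve_right h4
          have hy : Y = 2 := by linear_combination -(2 * hV - h9) / 5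
          have hx : X = -9 / 2 := by linear_combination (9 * hV - 2 * h9) / 10
          exact ⟨Or.inr hx, Or.inl hy⟩
      · -- X + Y = 0
        have hx : X = -Y := by linear_combination hV
        subst hx
        have h5 : Y * (Y - 2) = 0 := by linear_combination -h / 5
        have hy : Y = 2 := by
          rcases mul_eq_zero.mp h5 with h7 | h7
          · exact absurd h7 hY
          · linear_combination h7
        subst hy
        exact ⟨Or.inl rfl, Or.inl rfl⟩
    · -- X = 9Y
      have hx : X = 9 * Y := by linear_combination hV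
      subst hx
      have h5 : Y ^ 2 * (2 * Y + 1) = 0 := by linear_combination h / 45
      have hy : Y = -1 / 2 := by
        rcases mul_eq_zero.mp h5 with h7 | h7
        · exact absurd (by simpa using h7) hY
        · linear_combination h7 / 2
      subst hy
      constructor
      · right; norm_num
      · right; rfl

end Fermat.Agent.S51
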