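import Fermat.Agent.S51.Identities
import Fermat.Agent.S51.CurveCAux

/-!
# S51, package F: from the rational data of a 3-isogeny and a 5-isogeny to a contradiction
-/

set_option autoImplicit false

namespace Fermat.Agent.S51

open WeierstrassCurve

section maps
variable {A B : Type*} [CommRing A] [CommRing B] (φ : A →+* B) (E : WeierstrassCurve A)

lemma fX_map (x : A) : fX (E.map φ) (φ x) = φ (fX E x) := by
  simp [fX, map_ofNat]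

lemma nX_map (x : A) : nX (E.map φ) (φ x) = φ (nX E x) := by
  simp [nX, map_ofNat]

lemma tX_map (x : A) : tX (E.map φ) (φ x) = φ (tX E x) := by
  simp [tX, map_ofNat]

end maps

lemma final_case (c₄ Δ e G k : ℚ) (hΔ : Δ ≠ 0) (hG : G = k * Δ) (he3 : e ^ 3 = Δ + 27 * G)
    (hc4 : c₄ * G = e * (Δ + 3 * G)) : c₄ ^ 3 * k ^ 3 = (1 + 27 * k) * (1 + 3 * k) ^ 3 * Δ := by
  subst hG
  have h1 : c₄ * k = e * (1 + 3 * k) := mul_right_cancel₀ hΔ (by linear_combination hc4)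
  linear_combination ((c₄ * k) ^ 2 + (c₄ * k) * (e * (1 + 3 * k)) + (e * (1 + 3 * k)) ^ 2) * h1
    + (1 + 3 * k) ^ 3 * he3

/-- The purely rational part of the final argument. -/
theorem final_rat (heb : ∀ w v : ℚ, v ^ 2 = w * (w - 1) * (w - 81) → v = 0)
    (c₄ Δ e F D p : ℚ) (hΔ : Δ ≠ 0) (hF : F ≠ 0) (hD : D ≠ 0) (hp : p ≠ 0)
    (hcc : 9 * D ^ 5 * F ^ 4 * p - p ^ 6 * Δ ^ 2 + 5 * p ^ 3 * Δ * D ^ 3 * F ^ 2
      + p ^ 5 * Δ ^ 2 * D + D ^ 6 * F ^ 4 = 0)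
    (he3 : e ^ 3 = Δ + 27 * F ^ 2) (hc4 : c₄ * F ^ 2 = e * (Δ + 3 * F ^ 2)) :
    2 * c₄ ^ 3 = -25 * Δ ∨ 32 * c₄ ^ 3 = -121945 * Δ ∨
      8 * c₄ ^ 3 = -349938025 * Δ ∨ 32768 * c₄ ^ 3 = 46969655 * Δ := by
  obtain ⟨X, hXdef⟩ : ∃ X, X = 9 * D ^ 2 * F ^ 2 / (p ^ 2 * Δ) := ⟨_, rfl⟩
  obtain ⟨Y, hYdef⟩ : ∃ Y, Y = -(p ^ 3 * Δ) / (D ^ 3 * F ^ 2) := ⟨_, rfl⟩
  have hX : X ≠ 0 := by
    rw [hXdef]; positivity
  have hY : Y ≠ 0 := by
    rw [hYdef]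
    exact div_ne_zero (neg_ne_zero.mpr (by positivity)) (by positivity)
  have hC : X ^ 2 * Y + X * Y ^ 2 + 5 * X * Y + 9 * Y - X = 0 := by
    rw [hXdef, hYdef]
    field_simp
    linear_combination (-9) * hcc
  have hXY : Δ * (X ^ 3 * Y ^ 2) = 729 * F ^ 2 := by
    rw [hXdef, hYdef]
    field_simp
    norm_num
  obtain ⟨hX', hY'⟩ := curveC_points_of heb X Y hX hY hC
  rcases hX' with rfl | rfl <;> rcases hY' with rfl | rfl
  · -- X = -2, Y = 2 : 729 F² = -32 Δ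
    have hG : F ^ 2 = (-32 / 729) * Δ := by linear_combination -hXY / 729
    have := final_case c₄ Δ e (F ^ 2) _ hΔ hG he3 hc4
    right; right; right
    linear_combination (-387420489 : ℚ) * this
  · -- X = -2, Y = -1/2 : 729 F² = -2 Δ
    have hG : F ^ 2 = (-2 / 729) * Δ := by linear_combination -hXY / 729
    have := final_case c₄ Δ e (F ^ 2) _ hΔ hG he3 hc4
    right; right; left
    linear_combination (-387420489 : ℚ) * this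
  · -- X = -9/2, Y = 2 : F² = -Δ/2
    have hG : F ^ 2 = (-1 / 2) * Δ := by linear_combination -hXY / 729
    have := final_case c₄ Δ e (F ^ 2) _ hΔ hG he3 hc4
    left
    linear_combination (-16 : ℚ) * this
  · -- X = -9/2, Y = -1/2 : F² = -Δ/32
    have hG : F ^ 2 = (-1 / 32) * Δ := by linear_combination -hXY / 729
    have := final_case c₄ Δ e (F ^ 2) _ hΔ hG he3 hc4
    right; left
    linear_combination (-1048576 : ℚ) * this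

theorem final_arith_of (heb : ∀ w v : ℚ, v ^ 2 = w * (w - 1) * (w - 81) → v = 0)
    (E : WeierstrassCurve ℚ) (hΔ : E.Δ ≠ 0) {x₃ s₁ s₂ : ℚ} (h3 : tX E x₃ = 0)
    {x₁ x₂ : AlgebraicClosure ℚ} (h5 : IsX5 (E.baseChange (AlgebraicClosure ℚ)) x₁ x₂)
    (hs₁ : x₁ + x₂ = algebraMap ℚ (AlgebraicClosure ℚ) s₁)
    (hs₂ : x₁ * x₂ = algebraMap ℚ (AlgebraicClosure ℚ) s₂) :
    2 * E.c₄ ^ 3 = -25 * E.Δ ∨ 32 * E.c₄ ^ 3 = -121945 * E.Δ ∨
      8 * E.c₄ ^ 3 = -349938025 * E.Δ ∨ 32768 * E.c₄ ^ 3 = 46969655 * E.Δ := by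
  set ι := algebraMap ℚ (AlgebraicClosure ℚ) with hι
  have hinj : Function.Injective ι := ι.injective
  have h3' : tX (E.baseChange (AlgebraicClosure ℚ)) (ι x₃) = 0 := by
    rw [WeierstrassCurve.baseChange, tX_map, h3, map_zero]
  have hFK : fX (E.baseChange (AlgebraicClosure ℚ)) (ι x₃) = ι (fX E x₃) := by
    rw [WeierstrassCurve.baseChange, fX_map]
  have hΔK : (E.baseChange (AlgebraicClosure ℚ)).Δ = ι E.Δ := by
    rw [WeierstrassCurve.baseChange, WeierstrassCurve.map_Δ]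
  have hDK : (x₁ - x₂) ^ 2 = ι (s₁ ^ 2 - 4 * s₂) := by
    rw [map_sub, map_pow, map_mul, ← hs₁, ← hs₂, map_ofNat]; ring
  have hpK : (ι x₃ - x₁) * (ι x₃ - x₂) = ι (x₃ ^ 2 - s₁ * x₃ + s₂) := by
    rw [map_add, map_sub, map_pow, map_mul, ← hs₁, ← hs₂]; ring
  have hcc := cc_identity _ h5 h3'
  have hp0 := prod_ne_zero_of_isX5 _ h5 h3'
  rw [hFK, hΔK, hDK, hpK] at hcc
  rw [hpK] at hp0
  have hD0 : s₁ ^ 2 - 4 * s₂ ≠ 0 := by
    intro h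
    rw [h, map_zero] at hDK
    exact h5.1 (sub_eq_zero.mp (by simpa using hDK))
  have hp0' : x₃ ^ 2 - s₁ * x₃ + s₂ ≠ 0 := by
    intro h
    rw [h, map_zero] at hp0
    exact hp0 rfl
  refine final_rat heb E.c₄ E.Δ (6 * x₃ ^ 2 + E.b₂ * x₃ + E.b₄) (fX E x₃) (s₁ ^ 2 - 4 * s₂)
    (x₃ ^ 2 - s₁ * x₃ + s₂) hΔ (fX_ne_zero_of_tX E hΔ h3) hD0 hp0' ?_ (j3a E h3) (j3b E h3)
  apply hinj
  rw [map_zero, ← hcc]
  simp only [map_add, map_sub, map_mul, map_pow, map_ofNat]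

theorem no_semistable (c₄ Δ : ℤ) (h5 : (5 : ℤ) ∣ Δ → ¬ (5 : ℤ) ∣ c₄)
    (h : 2 * c₄ ^ 3 = -25 * Δ ∨ 32 * c₄ ^ 3 = -121945 * Δ ∨
      8 * c₄ ^ 3 = -349938025 * Δ ∨ 32768 * c₄ ^ 3 = 46969655 * Δ) : False := by
  have hp : Prime (5 : ℤ) := Int.prime_iff_natAbs_prime.mpr (by norm_num)
  have hc : (5 : ℤ) ∣ c₄ := by
    apply hp.dvd_of_dvd_pow (n := 3)
    generalize c₄ ^ 3 = C at h
    omega
  obtain ⟨t, rfl⟩ := hc
  apply h5 _ (Dvd.intro t rfl)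
  have e : (5 * t) ^ 3 = 125 * t ^ 3 := by ring
  rw [e] at h
  generalize t ^ 3 = T at h
  omega

end Fermat.Agent.S51
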