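import Fermat.Agent.S51.Defs

/-!
# S51, package A (part 1): polynomial identities for 3-torsion and the X₀(15) relation
-/

set_option autoImplicit false

namespace Fermat.Agent.S51

section A
variable {K : Type*} [Field K] (E : WeierstrassCurve K)

theorem j3a {x : K} (h3 : tX E x = 0) :
    (6 * x ^ 2 + E.b₂ * x + E.b₄) ^ 3 = E.Δ + 27 * fX E x ^ 2 := by
  have hrel := E.b_relation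
  simp only [tX] at h3
  simp only [fX, WeierstrassCurve.Δ]
  linear_combination (E.b₂ ^ 2 - 12 * E.b₂ * x - 36 * E.b₄ - 72 * x ^ 2) * h3 +
    (3 * E.b₂ * x + 9 * E.b₄ + 18 * x ^ 2) * hrel

theorem j3b {x : K} (h3 : tX E x = 0) :
    E.c₄ * fX E x ^ 2 = (6 * x ^ 2 + E.b₂ * x + E.b₄) * (E.Δ + 3 * fX E x ^ 2) := by
  have hrel := E.b_relation
  simp only [tX] at h3
  simp only [fX, WeierstrassCurve.Δ, WeierstrassCurve.c₄]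
  linear_combination (E.b₂ ^ 3 * x + E.b₂ ^ 2 * E.b₄ + 2 * E.b₂ ^ 2 * x ^ 2 - 32 * E.b₂ * E.b₄ * x
      + 4 * E.b₂ * E.b₆ - 32 * E.b₂ * x ^ 3 - 32 * E.b₄ ^ 2 - 144 * E.b₄ * x ^ 2 + 48 * E.b₆ * x
      - 96 * x ^ 4) * h3 +
    (E.b₂ ^ 2 * x ^ 2 + 8 * E.b₂ * E.b₄ * x - E.b₂ * E.b₆ + 8 * E.b₂ * x ^ 3 + 8 * E.b₄ ^ 2
      + 36 * E.b₄ * x ^ 2 - 12 * E.b₆ * x + 24 * x ^ 4) * hrel

theorem fX_ne_zero_of_tX (hΔ : E.Δ ≠ 0) {x : K} (h3 : tX E x = 0) : fX E x ≠ 0 := by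
  intro hF
  have he2 : (6 * x ^ 2 + E.b₂ * x + E.b₄) ^ 2 = 0 := by
    have hrel := E.b_relation
    have h3' := h3
    have hF' := hF
    simp only [tX] at h3'
    simp only [fX] at hF'
    linear_combination (E.b₂ + 12 * x) * hF' - 4 * h3' + hrel
  have he : 6 * x ^ 2 + E.b₂ * x + E.b₄ = 0 := by
    simpa using he2
  have h := j3a E h3
  rw [he, hF] at h
  apply hΔ
  linear_combination -h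

/-- The key identity in Tate normal form coordinates. -/
theorem cc_tate (b ξ : K)
    (hT : 3 * ξ ^ 4 + (b ^ 2 - 6 * b + 1) * ξ ^ 3 + 3 * (b ^ 2 - b) * ξ ^ 2 + 3 * b ^ 2 * ξ
      - b ^ 3 = 0) :
    9 * (4 * ξ ^ 3 + (b ^ 2 - 6 * b + 1) * ξ ^ 2 + 2 * (b ^ 2 - b) * ξ + b ^ 2) ^ 4 * (ξ * (ξ - b))
      - (ξ * (ξ - b)) ^ 6 * (b ^ 2 - 11 * b - 1) ^ 2
      + 5 * b * (ξ * (ξ - b)) ^ 3 * (b ^ 2 - 11 * b - 1)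
        * (4 * ξ ^ 3 + (b ^ 2 - 6 * b + 1) * ξ ^ 2 + 2 * (b ^ 2 - b) * ξ + b ^ 2) ^ 2
      + b ^ 2 * (ξ * (ξ - b)) ^ 5 * (b ^ 2 - 11 * b - 1) ^ 2
      + b ^ 2 * (4 * ξ ^ 3 + (b ^ 2 - 6 * b + 1) * ξ ^ 2 + 2 * (b ^ 2 - b) * ξ + b ^ 2) ^ 4 = 0 := by
  linear_combination (b ^ 8 * ξ ^ 5 - 9 * b ^ 7 * ξ ^ 6 - 48 * b ^ 7 * ξ ^ 5 - 50 * b ^ 7 * ξ ^ 4 - 51 * b ^ 7 * ξ ^ 3 - 28 * b ^ 7 * ξ ^ 2 - 8 * b ^ 7 * ξ - b ^ 7 + 9 * b ^ 6 * ξ ^ 7 + 205 * b ^ 6 * ξ ^ 6 + 528 * b ^ 6 * ξ ^ 5 + 524 * b ^ 6 * ξ ^ 4 + 352 * b ^ 6 * ξ ^ 3 + 117 * b ^ 6 * ξ ^ 2 + 14 * b ^ 6 * ξ - 274 * b ^ 5 * ξ ^ 7 - 1768 * b ^ 5 * ξ ^ 6 - 2405 * b ^ 5 * ξ ^ 5 - 1802 * b ^ 5 * ξ ^ 4 - 582 * b ^ 5 * ξ ^ 3 - 64 * b ^ 5 * ξ ^ 2 + 117 * b ^ 4 * ξ ^ 8 + 2664 * b ^ 4 * ξ ^ 7 + 6117 * b ^ 4 * ξ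 ^ 6 + 4760 * b ^ 4 * ξ ^ 5 + 1435 * b ^ 4 * ξ ^ 4 + 145 * b ^ 4 * ξ ^ 3 - 1886 * b ^ 3 * ξ ^ 8 - 9164 * b ^ 3 * ξ ^ 7 - 7080 * b ^ 3 * ξ ^ 6 - 1980 * b ^ 3 * ξ ^ 5 - 185 * b ^ 3 * ξ ^ 4 + 512 * b ^ 2 * ξ ^ 9 + 8051 * b ^ 2 * ξ ^ 8 + 6008 * b ^ 2 * ξ ^ 7 + 1563 * b ^ 2 * ξ ^ 6 + 136 * b ^ 2 * ξ ^ 5 - 3840 * b * ξ ^ 9 - 2722 * b * ξ ^ 8 - 662 * b * ξ ^ 7 - 54 * b * ξ ^ 6 + 768 * ξ ^ 10 + 512 * ξ ^ 9 + 117 * ξ ^ 8 + 9 * ξ ^ 7) * hT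

theorem cc_aux (b₂ b₄ b₆ b₈ x₁ x₂ x₃ : K) (hrel : 4 * b₈ = b₂ * b₆ - b₄ ^ 2) (hne : x₁ ≠ x₂)
    (hf1 : 4 * x₁ ^ 3 + b₂ * x₁ ^ 2 + 2 * b₄ * x₁ + b₆ ≠ 0)
    (hd1 : x₂ * (4 * x₁ ^ 3 + b₂ * x₁ ^ 2 + 2 * b₄ * x₁ + b₆)
      = x₁ ^ 4 - b₄ * x₁ ^ 2 - 2 * b₆ * x₁ - b₈)
    (hd2 : x₁ * (4 * x₂ ^ 3 + b₂ * x₂ ^ 2 + 2 * b₄ * x₂ + b₆)
      = x₂ ^ 4 - b₄ * x₂ ^ 2 - 2 * b₆ * x₂ - b₈)
    (h3 : 3 * x₃ ^ 4 + b₂ * x₃ ^ 3 + 3 * b₄ * x₃ ^ 2 + 3 * b₆ * x₃ + b₈ = 0) :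
    9 * ((x₁ - x₂) ^ 2) ^ 5 * (4 * x₃ ^ 3 + b₂ * x₃ ^ 2 + 2 * b₄ * x₃ + b₆) ^ 4
        * ((x₃ - x₁) * (x₃ - x₂))
      - ((x₃ - x₁) * (x₃ - x₂)) ^ 6
        * (-b₂ ^ 2 * b₈ - 8 * b₄ ^ 3 - 27 * b₆ ^ 2 + 9 * b₂ * b₄ * b₆) ^ 2
      + 5 * ((x₃ - x₁) * (x₃ - x₂)) ^ 3
        * (-b₂ ^ 2 * b₈ - 8 * b₄ ^ 3 - 27 * b₆ ^ 2 + 9 * b₂ * b₄ * b₆) * ((x₁ - x₂) ^ 2) ^ 3
        * (4 * x₃ ^ 3 + b₂ * x₃ ^ 2 + 2 * b₄ * x₃ + b₆) ^ 2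
      + ((x₃ - x₁) * (x₃ - x₂)) ^ 5
        * (-b₂ ^ 2 * b₈ - 8 * b₄ ^ 3 - 27 * b₆ ^ 2 + 9 * b₂ * b₄ * b₆) ^ 2 * (x₁ - x₂) ^ 2
      + ((x₁ - x₂) ^ 2) ^ 6 * (4 * x₃ ^ 3 + b₂ * x₃ ^ 2 + 2 * b₄ * x₃ + b₆) ^ 4 = 0 := by
  obtain ⟨m, hm⟩ : ∃ m, m = x₂ - x₁ := ⟨_, rfl⟩
  obtain ⟨c, hc⟩ : ∃ c, c = 4 * x₁ ^ 3 + b₂ * x₁ ^ 2 + 2 * b₄ * x₁ + b₆ := ⟨_, rfl⟩
  have hm0 : m ≠ 0 := by rw [hm]; exact sub_ne_zero.mpr hne.symm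
  have hc0 : c ≠ 0 := by rw [hc]; exact hf1
  obtain ⟨B4, hB4⟩ : ∃ B4, B4 = b₄ + x₁ * b₂ + 6 * x₁ ^ 2 := ⟨_, rfl⟩
  obtain ⟨B2, hB2⟩ : ∃ B2, B2 = b₂ + 12 * x₁ := ⟨_, rfl⟩
  -- translated b₈
  have h8 : 3 * x₁ ^ 4 + b₂ * x₁ ^ 3 + 3 * b₄ * x₁ ^ 2 + 3 * b₆ * x₁ + b₈ = -(m * c) := by
    rw [hm, hc]; linear_combination hd1
  have h4 : B4 * m = m ^ 3 - c := by
    have : m * (m ^ 3 - B4 * m - c) = 0 := by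
      have hx2 : x₂ = x₁ + m := by rw [hm]; ring
      rw [hx2] at hd2
      rw [hB4, hc]
      rw [hc] at h8
      linear_combination -hd2 + h8
    rcases mul_eq_zero.mp this with h | h
    · exact absurd h hm0
    · linear_combination -h
  have h2 : B2 * c = B4 ^ 2 - 4 * m * c := by
    rw [hB2, hB4]
    rw [hc] at h8 ⊢
    linear_combination -hrel + 4 * h8
  obtain ⟨lam, hlam⟩ : ∃ lam, lam = c / m ^ 2 := ⟨_, rfl⟩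
  obtain ⟨b, hb⟩ : ∃ b, b = m ^ 3 / c := ⟨_, rfl⟩
  have hlam0 : lam ≠ 0 := by rw [hlam]; positivity
  obtain ⟨ξ, hξ⟩ : ∃ ξ, ξ = (x₃ - x₁) / lam := ⟨_, rfl⟩
  have em : m = lam * b := by rw [hlam, hb]; field_simp
  have ec : c = lam ^ 3 * b ^ 2 := by rw [hlam, hb]; field_simp
  have e4 : B4 = lam ^ 2 * (b ^ 2 - b) := by
    have : B4 = (m ^ 3 - c) / m := by field_simp; linear_combination h4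
    rw [this, hlam, hb]; field_simp
  have e2 : B2 = lam * (b ^ 2 - 6 * b + 1) := by
    have h4' : B4 = (m ^ 3 - c) / m := by field_simp; linear_combination h4
    have : B2 = (B4 ^ 2 - 4 * m * c) / c := by field_simp; linear_combination h2
    rw [this, h4', hlam, hb]; field_simp; ring
  have ex3 : x₃ = x₁ + lam * ξ := by rw [hξ]; field_simp; ring
  have ex2 : x₂ = x₁ + lam * b := by rw [← em, hm]; ring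
  have eb2 : b₂ = lam * (b ^ 2 - 6 * b + 1) - 12 * x₁ := by rw [← e2, hB2]; ring
  have eb4 : b₄ = lam ^ 2 * (b ^ 2 - b) - x₁ * b₂ - 6 * x₁ ^ 2 := by rw [← e4, hB4]; ring
  have eb6 : b₆ = lam ^ 3 * b ^ 2 - (4 * x₁ ^ 3 + b₂ * x₁ ^ 2 + 2 * b₄ * x₁) := by
    rw [← ec, hc]; ring
  have eb8 : b₈ = -(lam ^ 4 * b ^ 3)
      - (3 * x₁ ^ 4 + b₂ * x₁ ^ 3 + 3 * b₄ * x₁ ^ 2 + 3 * b₆ * x₁) := by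
    have : m * c = lam ^ 4 * b ^ 3 := by rw [em, ec]; ring
    rw [← this]; linear_combination h8
  have hF : 4 * x₃ ^ 3 + b₂ * x₃ ^ 2 + 2 * b₄ * x₃ + b₆
      = lam ^ 3 * (4 * ξ ^ 3 + (b ^ 2 - 6 * b + 1) * ξ ^ 2 + 2 * (b ^ 2 - b) * ξ + b ^ 2) := by
    rw [eb6, eb4, eb2, ex3]; ring
  have hD : -b₂ ^ 2 * b₈ - 8 * b₄ ^ 3 - 27 * b₆ ^ 2 + 9 * b₂ * b₄ * b₆
      = lam ^ 6 * b ^ 5 * (b ^ 2 - 11 * b - 1) := by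
    rw [eb8, eb6, eb4, eb2]; ring
  have hT : 3 * ξ ^ 4 + (b ^ 2 - 6 * b + 1) * ξ ^ 3 + 3 * (b ^ 2 - b) * ξ ^ 2 + 3 * b ^ 2 * ξ
      - b ^ 3 = 0 := by
    have : lam ^ 4 * (3 * ξ ^ 4 + (b ^ 2 - 6 * b + 1) * ξ ^ 3 + 3 * (b ^ 2 - b) * ξ ^ 2
        + 3 * b ^ 2 * ξ - b ^ 3) = 0 := by
      rw [← h3, eb8, eb6, eb4, eb2, ex3]; ring
    rcases mul_eq_zero.mp this with h | h
    · exact absurd h (pow_ne_zero 4 hlam0)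
    · exact h
  have key := cc_tate b ξ hT
  rw [hF, hD, ex3, ex2]
  linear_combination (lam ^ 24 * b ^ 10) * key

theorem cc_identity {x₁ x₂ x₃ : K} (h5 : IsX5 E x₁ x₂) (h3 : tX E x₃ = 0) :
    9 * ((x₁ - x₂) ^ 2) ^ 5 * fX E x₃ ^ 4 * ((x₃ - x₁) * (x₃ - x₂))
      - ((x₃ - x₁) * (x₃ - x₂)) ^ 6 * E.Δ ^ 2
      + 5 * ((x₃ - x₁) * (x₃ - x₂)) ^ 3 * E.Δ * ((x₁ - x₂) ^ 2) ^ 3 * fX E x₃ ^ 2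
      + ((x₃ - x₁) * (x₃ - x₂)) ^ 5 * E.Δ ^ 2 * (x₁ - x₂) ^ 2
      + ((x₁ - x₂) ^ 2) ^ 6 * fX E x₃ ^ 4 = 0 := by
  obtain ⟨hne, hf1, -, hd1, hd2⟩ := h5
  exact cc_aux E.b₂ E.b₄ E.b₆ E.b₈ x₁ x₂ x₃ E.b_relation hne hf1 hd1 hd2 h3

theorem prod_ne_zero_of_isX5 {x₁ x₂ x₃ : K} (h5 : IsX5 E x₁ x₂) (h3 : tX E x₃ = 0) :
    (x₃ - x₁) * (x₃ - x₂) ≠ 0 := by
  obtain ⟨hne, hf1, hf2, hd1, hd2⟩ := h5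
  rw [tX_eq] at h3
  intro h
  rcases mul_eq_zero.mp h with h | h
  · have hx : x₃ = x₁ := sub_eq_zero.mp h
    rw [hx] at h3
    have : (x₁ - x₂) * fX E x₁ = 0 := by linear_combination h3 - hd1
    rcases mul_eq_zero.mp this with h' | h'
    · exact hne (sub_eq_zero.mp h')
    · exact hf1 h'
  · have hx : x₃ = x₂ := sub_eq_zero.mp h
    rw [hx] at h3
    have : (x₂ - x₁) * fX E x₂ = 0 := by linear_combination h3 - hd2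
    rcases mul_eq_zero.mp this with h' | h'
    · exact hne (sub_eq_zero.mp h').symm
    · exact hf2 h'

end A

end Fermat.Agent.S51
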