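import Fermat.Agent.S51.Defs
import Fermat.Agent.S51.Identities

/-!
# S51, package P: group law interface (duplication in terms of x-coordinates)
-/

set_option autoImplicit false

namespace Fermat.Agent.S51

open WeierstrassCurve WeierstrassCurve.Affine WeierstrassCurve.Affine.Point

section P
variable {K : Type*} [Field K] [DecidableEq K] (E : WeierstrassCurve K)

omit [DecidableEq K] in
/-- On the curve `(2y + a₁x + a₃)² = fX x`. -/
lemma sq_eq_fX {x y : K} (h : E.toAffine.Equation x y) :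
    (2 * y + E.a₁ * x + E.a₃) ^ 2 = fX E x := by
  rw [Affine.equation_iff] at h
  simp only [fX, WeierstrassCurve.b₂, WeierstrassCurve.b₄, WeierstrassCurve.b₆]
  linear_combination 4 * h

omit [DecidableEq K] in
lemma Y_eq_negY_iff {x y : K} (h : E.toAffine.Equation x y) :
    y = E.toAffine.negY x y ↔ fX E x = 0 := by
  rw [← sq_eq_fX E h, sq_eq_zero_iff, Affine.negY]
  constructor
  · intro h1; linear_combination h1
  · intro h1; linear_combination h1

theorem two_smul_eq_zero_iff {x y : K} (h : E.toAffine.Nonsingular x y) :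
    (2 : ℤ) • Point.some x y h = 0 ↔ fX E x = 0 := by
  rw [two_zsmul, ← Y_eq_negY_iff E h.1]
  constructor
  · intro h0
    by_contra hy
    rw [Point.add_self_of_Y_ne hy] at h0
    exact Point.some_ne_zero _ h0
  · intro hy
    exact Point.add_self_of_Y_eq hy

theorem two_smul_some {x y : K} (h : E.toAffine.Nonsingular x y) (hf : fX E x ≠ 0) :
    ∃ (x' y' : K) (h' : E.toAffine.Nonsingular x' y'),
      (2 : ℤ) • Point.some x y h = Point.some x' y' h' ∧ x' * fX E x = nX E x := by
  have hy : y ≠ E.toAffine.negY x y := fun hy => hf ((Y_eq_negY_iff E h.1).1 hy)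
  refine ⟨_, _, _, by rw [two_zsmul]; exact Point.add_self_of_Y_ne hy, ?_⟩
  rw [Affine.slope_of_Y_ne rfl hy]
  have hd : y - E.toAffine.negY x y ≠ 0 := sub_ne_zero.2 hy
  have hd2 : (y - E.toAffine.negY x y) ^ 2 = fX E x := by
    rw [← sq_eq_fX E h.1, Affine.negY]; ring
  rw [← hd2]
  have he := h.1
  rw [Affine.equation_iff] at he
  simp only [Affine.addX]
  field_simp
  simp only [nX, Affine.negY, WeierstrassCurve.b₄, WeierstrassCurve.b₆, WeierstrassCurve.b₈]
  linear_combination (-(E.a₁ ^ 2 + 4 * E.a₂ + 8 * x)) * he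

theorem three_smul_eq_zero_iff (hΔ : E.Δ ≠ 0) {x y : K} (h : E.toAffine.Nonsingular x y) :
    (3 : ℤ) • Point.some x y h = 0 ↔ tX E x = 0 := by
  have h3 : (3 : ℤ) • Point.some x y h = (2 : ℤ) • Point.some x y h + Point.some x y h := by
    rw [show (3 : ℤ) = 2 + 1 by norm_num, add_zsmul, one_zsmul]
  constructor
  · intro h0
    have h2 : (2 : ℤ) • Point.some x y h = -Point.some x y h := by
      rw [h3] at h0; exact eq_neg_of_add_eq_zero_left h0
    have hf : fX E x ≠ 0 := by
      intro hf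
      rw [(two_smul_eq_zero_iff E h).2 hf] at h2
      exact Point.some_ne_zero h (neg_eq_zero.1 h2.symm)
    obtain ⟨x', y', h', e, hx⟩ := two_smul_some E h hf
    have hxx : x' = x := Point.X_eq_iff.2 (Or.inr (e ▸ h2))
    rw [tX_eq, ← hx, hxx, sub_self]
  · intro ht
    have hf : fX E x ≠ 0 := fX_ne_zero_of_tX E hΔ ht
    obtain ⟨x', y', h', e, hx⟩ := two_smul_some E h hf
    have hxx : x' = x := by
      rw [tX_eq, ← hx, ← sub_mul] at ht
      exact (sub_eq_zero.1 ((mul_eq_zero.1 ht).resolve_right hf)).symm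
    rcases (Point.X_eq_iff (h₁ := h') (h₂ := h)).1 hxx with h1 | h1
    · exfalso
      rw [← e, two_zsmul] at h1
      exact Point.some_ne_zero h (add_eq_left.1 h1)
    · rw [h3, e, h1, neg_add_cancel]

theorem five_smul_eq_zero_iff {x y : K} (h : E.toAffine.Nonsingular x y) :
    (5 : ℤ) • Point.some x y h = 0 ↔
      ∃ (x' y' : K) (h' : E.toAffine.Nonsingular x' y'),
        (2 : ℤ) • Point.some x y h = Point.some x' y' h' ∧ IsX5 E x x' := by
  set P := Point.some x y h with hP
  have hP0 : P ≠ 0 := Point.some_ne_zero h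
  have h5 : (5 : ℤ) • P = (2 : ℤ) • ((2 : ℤ) • P) + P := by
    rw [smul_smul, show (5 : ℤ) = 2 * 2 + 1 by norm_num, add_zsmul, one_zsmul]
  constructor
  · intro h0
    have h4 : (2 : ℤ) • ((2 : ℤ) • P) = -P := by
      rw [h5] at h0; exact eq_neg_of_add_eq_zero_left h0
    have hf : fX E x ≠ 0 := by
      intro hf
      rw [(two_smul_eq_zero_iff E h).2 hf, smul_zero] at h4
      exact hP0 (neg_eq_zero.1 h4.symm)
    obtain ⟨x', y', h', e, hx⟩ := two_smul_some E h hf
    refine ⟨x', y', h', e, ?_⟩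
    rw [← hP] at e
    rw [e] at h4
    have hf' : fX E x' ≠ 0 := by
      intro hf'
      rw [(two_smul_eq_zero_iff E h').2 hf'] at h4
      exact hP0 (neg_eq_zero.1 h4.symm)
    obtain ⟨x'', y'', h'', e', hx'⟩ := two_smul_some E h' hf'
    have hxx : x'' = x := Point.X_eq_iff.2 (Or.inr (e' ▸ h4))
    refine ⟨?_, hf, hf', hx, hxx ▸ hx'⟩
    intro hne
    rcases (Point.X_eq_iff (h₁ := h') (h₂ := h)).1 hne.symm with h1 | h1
    · rw [← e, ← hP, two_zsmul] at h1
      exact hP0 (add_eq_left.1 h1)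
    · rw [← hP] at h1
      -- 2P = -P and 4P = -P
      rw [h1, smul_neg, e, h1, neg_neg] at h4
      -- P = -P, so 2P = 0
      apply hP0
      have : (2 : ℤ) • P = 0 := by rw [two_zsmul]; nth_rewrite 1 [h4]; exact neg_add_cancel P
      rw [e, h1] at this
      exact neg_eq_zero.1 this
  · rintro ⟨x', y', h', e, hne, hf, hf', hx, hx'⟩
    obtain ⟨x'', y'', h'', e', hx''⟩ := two_smul_some E h' hf'
    have hxx : x'' = x := by
      rw [← hx'] at hx''
      exact mul_right_cancel₀ hf' hx''
    rcases (Point.X_eq_iff (h₁ := h'') (h₂ := h)).1 hxx with h1 | h1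
    · exfalso
      -- 4P = P, so 3P = 0, so 2P = -P
      rw [← e', ← e, ← hP] at h1
      have h2 : (2 : ℤ) • P = -P := by
        have : (2 : ℤ) • P + ((2 : ℤ) • P + P) = (2 : ℤ) • P := by
          have h6 : (2 : ℤ) • ((2 : ℤ) • P) = (2 : ℤ) • P + (2 : ℤ) • P := two_zsmul _
          rw [h6] at h1
          rw [← add_assoc, h1, two_zsmul]
        exact eq_neg_of_add_eq_zero_left (add_eq_left.1 this)
      rw [e] at h2
      exact hne (Point.X_eq_iff.2 (Or.inr h2)).symm
    · rw [h5, e, e', h1, ← hP, neg_add_cancel]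

omit [DecidableEq K] in
theorem exists_nonsingular [IsAlgClosed K] (hΔ : E.Δ ≠ 0) (x : K) :
    ∃ y, E.toAffine.Nonsingular x y := by
  classical
  obtain ⟨y, hy⟩ := IsAlgClosed.exists_root
    (Polynomial.C 1 * Polynomial.X ^ 2 + Polynomial.C (E.a₁ * x + E.a₃) * Polynomial.X
      + Polynomial.C (-(x ^ 3 + E.a₂ * x ^ 2 + E.a₄ * x + E.a₆)) : Polynomial K)
    (by
      rw [Polynomial.degree_quadratic one_ne_zero]
      decide)
  refine ⟨y, (Affine.equation_iff_nonsingular_of_Δ_ne_zero hΔ).1 ?_⟩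
  rw [Affine.equation_iff]
  simp only [Polynomial.IsRoot, Polynomial.eval_add, Polynomial.eval_pow, Polynomial.eval_X,
    Polynomial.eval_mul, Polynomial.eval_C] at hy
  linear_combination hy

end P

end Fermat.Agent.S51
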