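import Fermat.Agent.S51.Identities

/-!
# S51, package A (part 2): roots of ψ₃ and ψ₅
-/

set_option autoImplicit false

namespace Fermat.Agent.S51

open Polynomial

section A
variable {K : Type*} [Field K] (E : WeierstrassCurve K)

/-- `preΨ₄` evaluated at `x`. -/
def gX (E : WeierstrassCurve K) (x : K) : K :=
  2 * x ^ 6 + E.b₂ * x ^ 5 + 5 * E.b₄ * x ^ 4 + 10 * E.b₆ * x ^ 3 + 10 * E.b₈ * x ^ 2
    + (E.b₂ * E.b₈ - E.b₄ * E.b₆) * x + (E.b₄ * E.b₈ - E.b₆ ^ 2)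

/-- `ψ₅` evaluated at `x`. -/
def qX (E : WeierstrassCurve K) (x : K) : K := gX E x * fX E x ^ 2 - tX E x ^ 3

lemma eval_Ψ₃ (x : K) : E.Ψ₃.eval x = tX E x := by
  simp [WeierstrassCurve.Ψ₃, tX]

lemma eval_preΨ'_five (x : K) : (E.preΨ' 5).eval x = qX E x := by
  have h : E.preΨ' 5 = E.preΨ₄ * E.Ψ₂Sq ^ 2 - E.Ψ₃ ^ 3 := by
    have := E.preΨ'_odd 0
    simpa using this
  rw [h]
  simp [WeierstrassCurve.Ψ₃, WeierstrassCurve.preΨ₄, WeierstrassCurve.Ψ₂Sq, qX, gX, fX, tX]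

/-- `f(x(2P)) f(x)³ = preΨ₄(x)²`. -/
lemma ident_one (x : K) :
    4 * nX E x ^ 3 + E.b₂ * nX E x ^ 2 * fX E x + 2 * E.b₄ * nX E x * fX E x ^ 2
      + E.b₆ * fX E x ^ 3 = gX E x ^ 2 := by
  have hrel := E.b_relation
  simp only [nX, fX, gX]
  linear_combination (-E.b₂ ^ 2 * x ^ 6 - 6 * E.b₂ * E.b₄ * x ^ 5 - 7 * E.b₂ * E.b₆ * x ^ 4 - 4 * E.b₂ * E.b₈ * x ^ 3 - 8 * E.b₂ * x ^ 7 - 8 * E.b₄ ^ 2 * x ^ 4 - 16 * E.b₄ * E.b₆ * x ^ 3 - 8 * E.b₄ * E.b₈ * x ^ 2 - 28 * E.b₄ * x ^ 6 - 7 * E.b₆ ^ 2 * x ^ 2 - 6 * E.b₆ * E.b₈ * x - 38 * E.b₆ * x ^ 5 - E.b₈ ^ 2 - 22 * E.b₈ * x ^ 4 - 13 * x ^ 8) * hrel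

/-- numerator of `x(4P) - x(P)`. -/
lemma ident_two (x : K) :
    nX E x ^ 4 - E.b₄ * nX E x ^ 2 * fX E x ^ 2 - 2 * E.b₆ * nX E x * fX E x ^ 3
      - E.b₈ * fX E x ^ 4 - x * fX E x * gX E x ^ 2 = - (tX E x * qX E x) := by
  have hrel := E.b_relation
  simp only [nX, fX, gX, qX, tX]
  linear_combination (-E.b₂ ^ 2 * E.b₄ * x ^ 8 - 3 * E.b₂ ^ 2 * E.b₆ * x ^ 7 - 3 * E.b₂ ^ 2 * E.b₈ * x ^ 6 - E.b₂ ^ 2 * x ^ 10 - 4 * E.b₂ * E.b₄ ^ 2 * x ^ 7 - 14 * E.b₂ * E.b₄ * E.b₆ * x ^ 6 - 12 * E.b₂ * E.b₄ * E.b₈ * x ^ 5 - 16 * E.b₂ * E.b₄ * x ^ 9 - 7 * E.b₂ * E.b₆ ^ 2 * x ^ 5 - 8 * E.b₂ * E.b₆ * E.b₈ * x ^ 4 - 36 * E.b₂ * E.b₆ * x ^ 8 - E.b₂ * E.b₈ ^ 2 * x ^ 3 - 30 * E.b₂ * E.b₈ * x ^ 7 - 5 * E.b₂ * x ^ 11 - 4 * E.b₄ ^ 3 * x ^ 6 - 16 * E.b₄ ^ 2 * E.b₆ * x ^ 5 - 12 * E.b₄ ^ 2 * E.b₈ * x ^ 4 - 28 * E.b₄ ^ 2 * x ^ 8 - 15 * E.b₄ * E.b₆ ^ 2 * x ^ 4 - 16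 * E.b₄ * E.b₆ * E.b₈ * x ^ 3 - 84 * E.b₄ * E.b₆ * x ^ 7 - 2 * E.b₄ * E.b₈ ^ 2 * x ^ 2 - 60 * E.b₄ * E.b₈ * x ^ 6 - 42 * E.b₄ * x ^ 10 - 4 * E.b₆ ^ 3 * x ^ 3 - 5 * E.b₆ ^ 2 * E.b₈ * x ^ 2 - 39 * E.b₆ ^ 2 * x ^ 6 - E.b₆ * E.b₈ ^ 2 * x - 38 * E.b₆ * E.b₈ * x ^ 5 - 93 * E.b₆ * x ^ 9 - 4 * E.b₈ ^ 2 * x ^ 4 - 72 * E.b₈ * x ^ 8 - 4 * x ^ 12) * hrel

lemma fX_dup {x x' : K} (hd : x' * fX E x = nX E x) :
    fX E x' * fX E x ^ 3 = gX E x ^ 2 := by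
  rw [← ident_one, ← hd]
  simp only [fX]
  ring

lemma nX_dup {x x' : K} (hd : x' * fX E x = nX E x) :
    (nX E x' - x * fX E x') * fX E x ^ 4 = - (tX E x * qX E x) := by
  rw [← ident_two, ← fX_dup E hd, ← hd]
  simp only [nX, fX]
  ring

lemma qX_eq_zero_of_isX5 {x₁ x₂ : K} (h : IsX5 E x₁ x₂) : qX E x₁ = 0 := by
  obtain ⟨hne, hf1, hf2, hd1, hd2⟩ := h
  have h1 := nX_dup E hd1
  rw [← hd2, sub_self, zero_mul] at h1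
  have ht : tX E x₁ ≠ 0 := by
    rw [tX_eq, ← hd1]
    intro h0
    have : (x₁ - x₂) * fX E x₁ = 0 := by linear_combination h0
    rcases mul_eq_zero.mp this with h' | h'
    · exact hne (sub_eq_zero.mp h')
    · exact hf1 h'
  have : tX E x₁ * qX E x₁ = 0 := by linear_combination h1
  exact (mul_eq_zero.mp this).resolve_left ht

lemma isX5_of_qX_eq_zero (hΔ : E.Δ ≠ 0) {x₁ : K} (h : qX E x₁ = 0) :
    IsX5 E x₁ (nX E x₁ / fX E x₁) := by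
  have hf1 : fX E x₁ ≠ 0 := by
    intro hf
    have ht : tX E x₁ = 0 := by
      have : tX E x₁ ^ 3 = 0 := by
        rw [qX, hf] at h
        linear_combination -h
      simpa using this
    exact fX_ne_zero_of_tX E hΔ ht hf
  have hd1 : nX E x₁ / fX E x₁ * fX E x₁ = nX E x₁ := div_mul_cancel₀ _ hf1
  have hg : gX E x₁ ≠ 0 := by
    intro hg
    have ht : tX E x₁ = 0 := by
      have : tX E x₁ ^ 3 = 0 := by
        rw [qX, hg] at h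
        linear_combination -h
      simpa using this
    have hx : nX E x₁ / fX E x₁ = x₁ := by
      rw [tX_eq] at ht
      rw [div_eq_iff hf1]
      linear_combination -ht
    have h2 := fX_dup E hd1
    rw [hx, hg] at h2
    have : fX E x₁ ^ 4 = 0 := by linear_combination h2
    exact hf1 (by simpa using this)
  have hf2 : fX E (nX E x₁ / fX E x₁) ≠ 0 := by
    intro hf
    have h2 := fX_dup E hd1
    rw [hf, zero_mul] at h2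
    exact hg (by simpa using h2.symm)
  refine ⟨?_, hf1, hf2, hd1, ?_⟩
  · intro hx
    have ht : tX E x₁ = 0 := by
      rw [tX_eq]
      rw [← hx] at hd1
      linear_combination hd1
    rw [qX, ht] at h
    have : gX E x₁ * fX E x₁ ^ 2 = 0 := by linear_combination h
    rcases mul_eq_zero.mp this with h' | h'
    · exact hg h'
    · exact hf1 (by simpa using h')
  · have h1 := nX_dup E hd1
    rw [h, mul_zero, neg_zero] at h1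
    rcases mul_eq_zero.mp h1 with h' | h'
    · linear_combination -h'
    · exact absurd (by simpa using h') hf1

lemma finite_roots_aux {p : K[X]} (hp : p ≠ 0) :
    {x : K | p.eval x = 0}.Finite ∧ {x : K | p.eval x = 0}.ncard ≤ p.natDegree := by
  classical
  have h : {x : K | p.eval x = 0} = ↑p.roots.toFinset := by
    ext x
    simp [hp]
  rw [h]
  refine ⟨Finset.finite_toSet _, ?_⟩
  rw [Set.ncard_coe_finset]
  exact (Multiset.toFinset_card_le _).trans (Polynomial.card_roots' p)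

theorem finite_tX [CharZero K] :
    {x : K | tX E x = 0}.Finite ∧ {x : K | tX E x = 0}.ncard ≤ 4 := by
  have h3 : (3 : K) ≠ 0 := by norm_num
  have h := finite_roots_aux (E.Ψ₃_ne_zero h3)
  simp only [eval_Ψ₃, E.natDegree_Ψ₃ h3] at h
  exact h

theorem exists_tX_root [IsAlgClosed K] [CharZero K] : ∃ x : K, tX E x = 0 := by
  have h3 : (3 : K) ≠ 0 := by norm_num
  obtain ⟨x, hx⟩ := IsAlgClosed.exists_root E.Ψ₃ (by
    rw [Polynomial.degree_eq_natDegree (E.Ψ₃_ne_zero h3), E.natDegree_Ψ₃ h3]; norm_num)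
  exact ⟨x, by rw [← eval_Ψ₃]; exact hx⟩

theorem exists_isX5 [IsAlgClosed K] [CharZero K] (hΔ : E.Δ ≠ 0) : ∃ x₁ x₂, IsX5 E x₁ x₂ := by
  have h5 : ((5 : ℕ) : K) ≠ 0 := by norm_num
  obtain ⟨x, hx⟩ := IsAlgClosed.exists_root (E.preΨ' 5) (by
    rw [Polynomial.degree_eq_natDegree (E.preΨ'_ne_zero h5), E.natDegree_preΨ' h5]; norm_num)
  exact ⟨x, _, isX5_of_qX_eq_zero E hΔ (by rw [← eval_preΨ'_five]; exact hx)⟩

theorem finite_isX5 [CharZero K] :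
    {x₁ : K | ∃ x₂, IsX5 E x₁ x₂}.Finite ∧ {x₁ : K | ∃ x₂, IsX5 E x₁ x₂}.ncard ≤ 16 := by
  have h5 : ((5 : ℕ) : K) ≠ 0 := by norm_num
  have h := finite_roots_aux (E.preΨ'_ne_zero h5)
  simp only [eval_preΨ'_five, E.natDegree_preΨ' h5] at h
  have hsub : {x₁ : K | ∃ x₂, IsX5 E x₁ x₂} ⊆ {x : K | qX E x = 0} := by
    rintro x ⟨x₂, hx⟩
    exact qX_eq_zero_of_isX5 E hx
  refine ⟨h.1.subset hsub, (Set.ncard_le_ncard hsub h.1).trans (h.2.trans ?_)⟩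
  norm_num

end A

end Fermat.Agent.S51
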