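import Fermat.Agent.S51.CardBase
import Fermat.Agent.S51.Psi5
import Fermat.Agent.S51.Doubling

/-!
# S51, package N : counting 3- and 5-torsion points
(`line_of_card`, `card_points_le` are in `CardBase.lean`.)
-/

set_option autoImplicit false

namespace Fermat.Agent.S51

open WeierstrassCurve WeierstrassCurve.Affine WeierstrassCurve.Affine.Point

section N
variable {K : Type*} [Field K] [DecidableEq K] (E : WeierstrassCurve K)

theorem card_three_torsion [CharZero K] (hΔ : E.Δ ≠ 0) :
    Finite (Submodule.torsionBy ℤ E.toAffine.Point (3 : ℕ)) ∧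
      Nat.card (Submodule.torsionBy ℤ E.toAffine.Point (3 : ℕ)) ≤ 9 := by
  obtain ⟨h1, h2⟩ := card_points_le E (finite_tX E).1 (finite_tX E).2
    (Submodule.torsionBy ℤ E.toAffine.Point (3 : ℕ) : Set E.toAffine.Point) (by
      intro x y h hP
      have hP' : (3 : ℤ) • Point.some x y h = 0 := by
        simpa [Submodule.mem_torsionBy_iff] using hP
      exact (three_smul_eq_zero_iff E hΔ h).1 hP')
  exact ⟨h1.to_subtype, h2⟩

theorem card_five_torsion [CharZero K] (_hΔ : E.Δ ≠ 0) :
    Finite (Submodule.torsionBy ℤ E.toAffine.Point (5 : ℕ)) ∧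
      Nat.card (Submodule.torsionBy ℤ E.toAffine.Point (5 : ℕ)) ≤ 33 := by
  obtain ⟨h1, h2⟩ := card_points_le E (finite_isX5 E).1 (finite_isX5 E).2
    (Submodule.torsionBy ℤ E.toAffine.Point (5 : ℕ) : Set E.toAffine.Point) (by
      intro x y h hP
      have hP' : (5 : ℤ) • Point.some x y h = 0 := by
        simpa [Submodule.mem_torsionBy_iff] using hP
      obtain ⟨x', _, _, _, hx⟩ := (five_smul_eq_zero_iff E h).1 hP'
      exact ⟨x', hx⟩)
  exact ⟨h1.to_subtype, h2⟩

end N

end Fermat.Agent.S51
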