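import Fermat.Agent.S51.Doubling
import Fermat.Agent.S51.Psi5
import Fermat.Agent.S51.Card

set_option autoImplicit false

namespace Fermat.Agent.S51

open WeierstrassCurve WeierstrassCurve.Affine WeierstrassCurve.Affine.Point

namespace Galois

local notation "Qb" => AlgebraicClosure ℚ

/-- local copy of the `IsAlgClosure` instance for the `ℚ`-algebra structure used in the Prelude -/
theorem isAlgClosureQb : IsAlgClosure ℚ Qb := @AlgebraicClosure.instIsAlgClosure ℚ _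

theorem isGaloisQb : IsGalois ℚ Qb := by
  have := isAlgClosureQb
  infer_instance

theorem exists_rat_of_fixed (x : Qb) (h : ∀ σ : Qb ≃ₐ[ℚ] Qb, σ x = x) :
    ∃ r : ℚ, x = algebraMap ℚ Qb r := by
  have := isGaloisQb
  obtain ⟨r, hr⟩ := (InfiniteGalois.mem_range_algebraMap_iff_fixed (k := ℚ) (K := Qb) x).2 h
  exact ⟨r, hr.symm⟩

variable (E : WeierstrassCurve ℚ)

lemma tX_baseChange (r : ℚ) :
    tX (E.baseChange Qb) (algebraMap ℚ Qb r) = algebraMap ℚ Qb (tX E r) := by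
  simp only [tX, map_add, map_mul, map_pow, map_ofNat]
  simp [WeierstrassCurve.baseChange]

lemma smul_some (σ : Qb ≃ₐ[ℚ] Qb) {x y : Qb} (h : (E⁄Qb).Nonsingular x y) :
    ∃ h' : (E⁄Qb).Nonsingular (σ x) (σ y),
      σ • (Point.some x y h : (E⁄Qb).Point) = Point.some (σ x) (σ y) h' :=
  ⟨_, rfl⟩

lemma zmod_smul_coe {n : ℕ} [NeZero n] (c : ZMod n)
    (P : Submodule.torsionBy ℤ (E⁄Qb).Point n) :
    ((c • P : Submodule.torsionBy ℤ (E⁄Qb).Point n) : (E⁄Qb).Point) = c.val • (P : (E⁄Qb).Point) := by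
  conv_lhs => rw [← ZMod.natCast_zmod_val c, Nat.cast_smul_eq_nsmul]
  rfl

lemma Δ_baseChange_ne (hΔ : E.Δ ≠ 0) : (E.baseChange Qb).Δ ≠ 0 := by
  rw [WeierstrassCurve.baseChange, WeierstrassCurve.map_Δ]
  exact (map_ne_zero _).2 hΔ

lemma nontrivial_three (hΔ : E.Δ ≠ 0) :
    Nontrivial (Submodule.torsionBy ℤ (E⁄Qb).Point (3 : ℕ)) := by
  obtain ⟨x, hx⟩ := exists_tX_root (E.baseChange Qb)
  obtain ⟨y, hy⟩ := exists_nonsingular (E.baseChange Qb) (Δ_baseChange_ne E hΔ) x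
  have h3 := (three_smul_eq_zero_iff (E.baseChange Qb) (Δ_baseChange_ne E hΔ) hy).2 hx
  refine ⟨⟨⟨Point.some x y hy, ?_⟩, 0, ?_⟩⟩
  · rw [Submodule.mem_torsionBy_iff]
    simpa using h3
  · intro h
    exact Point.some_ne_zero hy (congrArg Subtype.val h)

lemma nontrivial_five (hΔ : E.Δ ≠ 0) :
    Nontrivial (Submodule.torsionBy ℤ (E⁄Qb).Point (5 : ℕ)) := by
  have hΔ' := Δ_baseChange_ne E hΔ
  obtain ⟨x₁, x₂, hx⟩ := exists_isX5 (E.baseChange Qb) hΔ'
  obtain ⟨y, hy⟩ := exists_nonsingular (E.baseChange Qb) hΔ' x₁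
  obtain ⟨x', y', h', h2, hx'⟩ := two_smul_some (E.baseChange Qb) hy hx.2.1
  have hxx : x' = x₂ := mul_right_cancel₀ hx.2.1 (hx'.trans hx.2.2.2.1.symm)
  subst hxx
  have h5 := (five_smul_eq_zero_iff (E.baseChange Qb) hy).2 ⟨x', y', h', h2, hx⟩
  refine ⟨⟨⟨Point.some x₁ y hy, ?_⟩, 0, ?_⟩⟩
  · rw [Submodule.mem_torsionBy_iff]
    simpa using h5
  · intro h
    exact Point.some_ne_zero hy (congrArg Subtype.val h)

end Galois

open Galois in
theorem exists_rat_of_not_irr3 (E : WeierstrassCurve ℚ) (hΔ : E.Δ ≠ 0)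
    (h : ¬ GaloisRepIsIrreducible (K := AlgebraicClosure ℚ) ℚ E 3) : ∃ x : ℚ, tX E x = 0 := by
  have hΔ' := Δ_baseChange_ne E hΔ
  rw [GaloisRepIsIrreducible, not_and] at h
  have h := h (nontrivial_three E hΔ)
  push Not at h
  obtain ⟨N, hN, h0, h1⟩ := h
  obtain ⟨P, hPN, hP0⟩ := Submodule.exists_mem_ne_zero_of_ne_bot h0
  obtain ⟨hfin, hcard⟩ := card_three_torsion (E.baseChange (AlgebraicClosure ℚ)) hΔ'
  have : Fact (Nat.Prime 3) := ⟨by norm_num⟩
  have hline := line_of_card (p := 3) (lt_of_le_of_lt hcard (by norm_num)) N h0 h1 hPN hP0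
  obtain ⟨P, hP⟩ := P
  rcases P with _ | ⟨x, y, hxy⟩
  · exact absurd rfl hP0
  have h3P : (3 : ℤ) • (Point.some x y hxy : (E⁄(AlgebraicClosure ℚ)).Point) = 0 := by
    simpa [Submodule.mem_torsionBy_iff] using hP
  have htx : tX (E.baseChange (AlgebraicClosure ℚ)) x = 0 :=
    (three_smul_eq_zero_iff _ hΔ' hxy).1 h3P
  have hfix : ∀ σ : AlgebraicClosure ℚ ≃ₐ[ℚ] AlgebraicClosure ℚ, σ x = x := by
    intro σ
    obtain ⟨c, hc⟩ := hline _ (hN σ _ hPN)
    have hc' : σ • (Point.some x y hxy : (E⁄(AlgebraicClosure ℚ)).Point) =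
        c.val • (Point.some x y hxy : (E⁄(AlgebraicClosure ℚ)).Point) := by
      have := congrArg Subtype.val hc
      rw [zmod_smul_coe] at this
      exact this
    obtain ⟨h', e⟩ := smul_some E σ hxy
    rw [e] at hc'
    have hcases : c.val = 0 ∨ c.val = 1 ∨ c.val = 2 := by
      have := ZMod.val_lt c
      omega
    rcases hcases with hv | hv | hv
    · rw [hv, zero_nsmul] at hc'
      exact absurd hc' (Point.some_ne_zero _)
    · rw [hv, one_nsmul] at hc'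
      exact (Point.some.inj hc').1
    · have h2 : (2 : ℕ) • (Point.some x y hxy : (E⁄(AlgebraicClosure ℚ)).Point)
          = - Point.some x y hxy := by
        rw [eq_neg_iff_add_eq_zero, ← h3P]
        rw [show (3 : ℤ) = ((3 : ℕ) : ℤ) from rfl, natCast_zsmul, succ_nsmul 
          (Point.some x y hxy : (E⁄(AlgebraicClosure ℚ)).Point) 2]
      rw [hv, h2, Point.neg_some] at hc'
      exact (Point.some.inj hc').1
  obtain ⟨r, hr⟩ := exists_rat_of_fixed x hfix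
  refine ⟨r, ?_⟩
  rw [hr, tX_baseChange] at htx
  exact (map_eq_zero _).1 htx

open Galois in
theorem exists_rat_of_not_irr5 (E : WeierstrassCurve ℚ) (hΔ : E.Δ ≠ 0)
    (h : ¬ GaloisRepIsIrreducible (K := AlgebraicClosure ℚ) ℚ E 5) :
    ∃ (x₁ x₂ : AlgebraicClosure ℚ) (s₁ s₂ : ℚ), IsX5 (E.baseChange (AlgebraicClosure ℚ)) x₁ x₂ ∧
      x₁ + x₂ = algebraMap ℚ (AlgebraicClosure ℚ) s₁ ∧
      x₁ * x₂ = algebraMap ℚ (AlgebraicClosure ℚ) s₂ := by
  have hΔ' := Δ_baseChange_ne E hΔ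
  rw [GaloisRepIsIrreducible, not_and] at h
  have h := h (nontrivial_five E hΔ)
  push Not at h
  obtain ⟨N, hN, h0, h1⟩ := h
  obtain ⟨P, hPN, hP0⟩ := Submodule.exists_mem_ne_zero_of_ne_bot h0
  obtain ⟨hfin, hcard⟩ := card_five_torsion (E.baseChange (AlgebraicClosure ℚ)) hΔ'
  have : Fact (Nat.Prime 5) := ⟨by norm_num⟩
  have hline := line_of_card (p := 5) (lt_of_le_of_lt hcard (by norm_num)) N h0 h1 hPN hP0
  obtain ⟨P, hP⟩ := P
  rcases P with _ | ⟨x₁, y₁, h₁⟩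
  · exact absurd rfl hP0
  have h5P : (5 : ℤ) • (Point.some x₁ y₁ h₁ : (E⁄(AlgebraicClosure ℚ)).Point) = 0 := by
    simpa [Submodule.mem_torsionBy_iff] using hP
  obtain ⟨x₂, y₂, h₂, h2P, hX5⟩ := (five_smul_eq_zero_iff _ h₁).1 h5P
  have hperm : ∀ σ : AlgebraicClosure ℚ ≃ₐ[ℚ] AlgebraicClosure ℚ,
      (σ x₁ = x₁ ∧ σ x₂ = x₂) ∨ (σ x₁ = x₂ ∧ σ x₂ = x₁) := by
    intro σ
    obtain ⟨c, hc⟩ := hline _ (hN σ _ hPN)
    have hc' : σ • (Point.some x₁ y₁ h₁ : (E⁄(AlgebraicClosure ℚ)).Point) =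
        (c.val : ℤ) • (Point.some x₁ y₁ h₁ : (E⁄(AlgebraicClosure ℚ)).Point) := by
      have := congrArg Subtype.val hc
      rw [zmod_smul_coe] at this
      rw [natCast_zsmul]
      exact this
    have hc2 : σ • (Point.some x₂ y₂ h₂ : (E⁄(AlgebraicClosure ℚ)).Point) =
        (2 * (c.val : ℤ)) • (Point.some x₁ y₁ h₁ : (E⁄(AlgebraicClosure ℚ)).Point) := by
      rw [← h2P, algEquiv_smul_zsmul, hc', mul_smul]
    obtain ⟨h₁', e₁⟩ := smul_some E σ h₁
    obtain ⟨h₂', e₂⟩ := smul_some E σ h₂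
    rw [e₁] at hc'
    rw [e₂] at hc2
    have hcases : c.val = 0 ∨ c.val = 1 ∨ c.val = 2 ∨ c.val = 3 ∨ c.val = 4 := by
      have := ZMod.val_lt c
      omega
    rcases hcases with hv | hv | hv | hv | hv
    · rw [hv] at hc'
      simp only [Nat.cast_zero] at hc'
      exact absurd hc' (Point.some_ne_zero _)
    · left
      rw [hv] at hc' hc2
      refine ⟨(Point.X_eq_iff (h₁ := h₁') (h₂ := h₁)).2 (Or.inl (hc'.trans ?_)),
        (Point.X_eq_iff (h₁ := h₂') (h₂ := h₂)).2 (Or.inl (hc2.trans ?_))⟩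
      · simp
      · rw [← h2P]; simp
    · right
      rw [hv] at hc' hc2
      refine ⟨(Point.X_eq_iff (h₁ := h₁') (h₂ := h₂)).2 (Or.inl (hc'.trans ?_)),
        (Point.X_eq_iff (h₁ := h₂') (h₂ := h₁)).2 (Or.inr (hc2.trans ?_))⟩
      · rw [← h2P]; simp
      · push_cast
        linear_combination (norm := module) h5P
    · right
      rw [hv] at hc' hc2
      refine ⟨(Point.X_eq_iff (h₁ := h₁') (h₂ := h₂)).2 (Or.inr (hc'.trans ?_)),
        (Point.X_eq_iff (h₁ := h₂') (h₂ := h₁)).2 (Or.inl (hc2.trans ?_))⟩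
      · rw [← h2P]
        push_cast
        linear_combination (norm := module) h5P
      · push_cast
        linear_combination (norm := module) h5P
    · left
      rw [hv] at hc' hc2
      refine ⟨(Point.X_eq_iff (h₁ := h₁') (h₂ := h₁)).2 (Or.inr (hc'.trans ?_)),
        (Point.X_eq_iff (h₁ := h₂') (h₂ := h₂)).2 (Or.inr (hc2.trans ?_))⟩
      · push_cast
        linear_combination (norm := module) h5P
      · rw [← h2P]
        push_cast
        linear_combination (norm := module) (2 : ℤ) • h5P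
  obtain ⟨s₁, hs₁⟩ := exists_rat_of_fixed (x₁ + x₂) (fun σ => by
    rcases hperm σ with ⟨ha, hb⟩ | ⟨ha, hb⟩
    · rw [map_add, ha, hb]
    · rw [map_add, ha, hb, add_comm])
  obtain ⟨s₂, hs₂⟩ := exists_rat_of_fixed (x₁ * x₂) (fun σ => by
    rcases hperm σ with ⟨ha, hb⟩ | ⟨ha, hb⟩
    · rw [map_mul, ha, hb]
    · rw [map_mul, ha, hb, mul_comm])
  exact ⟨x₁, x₂, s₁, s₂, hX5, hs₁, hs₂⟩

end Fermat.Agent.S51
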