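import Fermat.Statements.S51
import Fermat.Agent.S51.Galois
import Fermat.Agent.S51.Final

/-!
# S51: assembly, modulo the rank zero statement for `v² = w(w-1)(w-81)`
-/

set_option autoImplicit false

namespace Fermat.Agent.S51

open WeierstrassCurve WeierstrassCurve.Affine WeierstrassCurve.Affine.Point

theorem main_of (heb : ∀ w v : ℚ, v ^ 2 = w * (w - 1) * (w - 81) → v = 0)
    (W : WeierstrassCurve ℤ) (hΔ : W.Δ ≠ 0) (hW : W.IsSemistableModel) :
    W.ModRepIsIrreducible 3 ∨ W.ModRepIsIrreducible 5 := by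
  by_contra hcon
  rw [not_or] at hcon
  obtain ⟨hn3, hn5⟩ := hcon
  have hEΔ : (W.map (Int.castRingHom ℚ)).Δ ≠ 0 := by
    rw [WeierstrassCurve.map_Δ]
    simpa using hΔ
  obtain ⟨x₃, h3⟩ := exists_rat_of_not_irr3 _ hEΔ hn3
  obtain ⟨x₁, x₂, s₁, s₂, h5, hs₁, hs₂⟩ := exists_rat_of_not_irr5 _ hEΔ hn5
  have h := final_arith_of heb _ hEΔ h3 h5 hs₁ hs₂
  rw [WeierstrassCurve.map_Δ, WeierstrassCurve.map_c₄] at h
  refine no_semistable W.c₄ W.Δ (hW 5 (by norm_num)) ?_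
  simp only [eq_intCast] at h
  exact_mod_cast h

end Fermat.Agent.S51
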