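import Fermat.Agent.S51.Defs

/-!
# S51, package N (part independent of the group law): lines in small `ZMod p`-modules,
counting points by their `x`-coordinates
-/

set_option autoImplicit false

namespace Fermat.Agent.S51

open WeierstrassCurve WeierstrassCurve.Affine WeierstrassCurve.Affine.Point

theorem line_of_card {p : ℕ} [Fact p.Prime] {V : Type*} [AddCommGroup V] [Module (ZMod p) V]
    [Finite V] (h : Nat.card V < p ^ 3) (N : Submodule (ZMod p) V) (h0 : N ≠ ⊥) (h1 : N ≠ ⊤)
    {P : V} (hP : P ∈ N) (hP0 : P ≠ 0) : ∀ Q ∈ N, ∃ c : ZMod p, Q = c • P := by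
  have hp : 1 < p := (Fact.out : p.Prime).one_lt
  have hcard : Nat.card V = p ^ Module.finrank (ZMod p) V := by
    rw [Module.natCard_eq_pow_finrank (K := ZMod p) (V := V), Nat.card_zmod]
  have hV : Module.finrank (ZMod p) V < 3 := by
    rw [hcard] at h
    exact (Nat.pow_lt_pow_iff_right hp).1 h
  have hN : Module.finrank (ZMod p) N < Module.finrank (ZMod p) V := Submodule.finrank_lt h1
  have hN0 : 0 < Module.finrank (ZMod p) N := by
    rw [Module.finrank_pos_iff]
    exact (Submodule.nontrivial_iff_ne_bot).2 h0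
  have hN1 : Module.finrank (ZMod p) N = 1 := by omega
  have hP' : (⟨P, hP⟩ : N) ≠ 0 := fun h => hP0 (congrArg Subtype.val h)
  intro Q hQ
  obtain ⟨c, hc⟩ := (finrank_eq_one_iff_of_nonzero' (⟨P, hP⟩ : N) hP').1 hN1 ⟨Q, hQ⟩
  exact ⟨c, (congrArg Subtype.val hc).symm⟩

section N
variable {K : Type*} [Field K] [DecidableEq K] (E : WeierstrassCurve K)

/-- A set of points all of whose affine members have `x`-coordinate in a finite set `S`
has at most `1 + 2 * #S` elements. -/
theorem card_points_le {S : Set K} (hS : S.Finite) {n : ℕ} (hn : S.ncard ≤ n)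
    (T : Set E.toAffine.Point)
    (hT : ∀ (x y : K) (h : E.toAffine.Nonsingular x y), Point.some x y h ∈ T → x ∈ S) :
    T.Finite ∧ T.ncard ≤ 1 + 2 * n := by
  classical
  let g : K → Finset E.toAffine.Point := fun x =>
    if h : ∃ y, E.toAffine.Nonsingular x y then
      {Point.some x h.choose h.choose_spec, -Point.some x h.choose h.choose_spec}
    else ∅
  have hg : ∀ x, (g x).card ≤ 2 := by
    intro x
    by_cases h : ∃ y, E.toAffine.Nonsingular x y
    · simp only [g, dif_pos h]
      exact Finset.card_le_two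
    · simp [g, dif_neg h]
  let U : Finset E.toAffine.Point := insert 0 (hS.toFinset.biUnion g)
  have hU : U.card ≤ 1 + 2 * n := by
    have h1 : U.card ≤ (hS.toFinset.biUnion g).card + 1 := Finset.card_insert_le _ _
    have h2 : (hS.toFinset.biUnion g).card ≤ hS.toFinset.card * 2 :=
      Finset.card_biUnion_le_card_mul _ _ _ (fun x _ => hg x)
    have h3 : hS.toFinset.card = S.ncard := (Set.ncard_eq_toFinset_card S hS).symm
    rw [h3] at h2
    omega
  have hTU : T ⊆ (U : Set E.toAffine.Point) := by
    intro P hP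
    rcases P with _ | ⟨x, y, h⟩
    · simp only [U, Finset.coe_insert]
      exact Set.mem_insert _ _
    · have hx : x ∈ S := hT x y h hP
      have hex : ∃ y, E.toAffine.Nonsingular x y := ⟨y, h⟩
      simp only [U, Finset.coe_insert]
      refine Set.mem_insert_of_mem _ ?_
      simp only [Finset.mem_coe, Finset.mem_biUnion, Set.Finite.mem_toFinset]
      refine ⟨x, hx, ?_⟩
      simp only [g, dif_pos hex, Finset.mem_insert, Finset.mem_singleton]
      rcases Y_eq_of_X_eq h.1 hex.choose_spec.1 rfl with hy | hy
      · left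
        simp only [hy]
      · right
        rw [neg_some]
        simp only [hy]
  refine ⟨U.finite_toSet.subset hTU, ?_⟩
  calc T.ncard ≤ (U : Set E.toAffine.Point).ncard := Set.ncard_le_ncard hTU U.finite_toSet
    _ = U.card := Set.ncard_coe_finset U
    _ ≤ 1 + 2 * n := hU

end N

end Fermat.Agent.S51
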