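import Mathlib
import Fermat.Prelude.Def_FLTPrelim_GaloisRep

/-!
# S51: shared definitions (x-coordinate description of 3- and 5-torsion)
-/

set_option autoImplicit false

namespace Fermat.Agent.S51

variable {K : Type*} [CommRing K]

/-- `ψ₂² = 4x³ + b₂x² + 2b₄x + b₆`, the denominator of the duplication map. -/
def fX (E : WeierstrassCurve K) (x : K) : K :=
  4 * x ^ 3 + E.b₂ * x ^ 2 + 2 * E.b₄ * x + E.b₆

/-- `x⁴ - b₄x² - 2b₆x - b₈`, the numerator of the duplication map. -/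
def nX (E : WeierstrassCurve K) (x : K) : K :=
  x ^ 4 - E.b₄ * x ^ 2 - 2 * E.b₆ * x - E.b₈

/-- `ψ₃ = 3x⁴ + b₂x³ + 3b₄x² + 3b₆x + b₈`. -/
def tX (E : WeierstrassCurve K) (x : K) : K :=
  3 * x ^ 4 + E.b₂ * x ^ 3 + 3 * E.b₄ * x ^ 2 + 3 * E.b₆ * x + E.b₈

/-- `x₁ = x(P)`, `x₂ = x(2P)` for a point `P` of exact order five. -/
def IsX5 (E : WeierstrassCurve K) (x₁ x₂ : K) : Prop :=
  x₁ ≠ x₂ ∧ fX E x₁ ≠ 0 ∧ fX E x₂ ≠ 0 ∧ x₂ * fX E x₁ = nX E x₁ ∧ x₁ * fX E x₂ = nX E x₂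

lemma tX_eq (E : WeierstrassCurve K) (x : K) : tX E x = x * fX E x - nX E x := by
  simp only [tX, fX, nX]; ring

lemma IsX5.symm {E : WeierstrassCurve K} {x₁ x₂ : K} (h : IsX5 E x₁ x₂) : IsX5 E x₂ x₁ :=
  ⟨h.1.symm, h.2.2.1, h.2.1, h.2.2.2.2, h.2.2.2.1⟩

end Fermat.Agent.S51
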